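import Fermat.Agent.S36.HM.Interface
import Fermat.Agent.INJ.Inst.BranchT

/-!
# S36 / HM-BH : the branch conditions for the Hauptmodul `t` of level `a ∈ {4, 9}` and for `t⁻¹`

`stmt_BranchHM (hC : Stmt_ChartHM) (hU : Stmt_Unram) : Stmt_BranchHM`.

`BH_aux` is the finite set version of `INJ.Inst.BR_aux`: if `F / K(t)` is unramified outside
`{0, ∞} ∪ S`, with `S ⊆ Aˣ` pairwise distinct modulo the maximal ideal, then both `t` and `t⁻¹`
satisfy the branch condition.  Level 4: `S = {-16}`; level 9: `S = {ρ, -9 - ρ}` with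
`ρ² + 9 ρ + 27 = 0`.
-/

set_option autoImplicit false
set_option linter.style.haveILetI false
set_option linter.unusedSectionVars false
set_option synthInstance.maxHeartbeats 400000

noncomputable section

namespace Fermat.Agent.S36.HM

open AlgebraicCurve ModularCurve IntermediateField Polynomial Fermat.Agent.KL.Haupt
open Fermat.Agent Fermat.Agent.INJ Fermat.Agent.INJ.Inst Fermat.Agent.S24

/-- unramifiedness for `t⁻¹` from unramifiedness for `t` (finite exceptional set). -/
theorem BH_inv {K F : Type} [Field K] [Field F] [Algebra K F] {t : F} (ht : Transcendental K t)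
    (S : Finset K)
    (h : ∀ (v : Place K F) (c : K), c ≠ 0 → c ∉ S → 0 < v.ord (t - algebraMap K F c) →
      v.ord (t - algebraMap K F c) = 1)
    (v : Place K F) (c : K) (hc : c ≠ 0) (hcS : c⁻¹ ∉ S)
    (hv : 0 < v.ord (t⁻¹ - algebraMap K F c)) : v.ord (t⁻¹ - algebraMap K F c) = 1 := by
  have hti : Transcendental K t⁻¹ := placeCases_transcendental_inv ht
  have ht0 : t ≠ 0 := rh_ne_zero_of_transcendental ht
  have h0 : v.ord (t⁻¹ - algebraMap K F 0) = 0 := RA3_ord_sub hti v (Ne.symm hc) hv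
  rw [map_zero, sub_zero, v.ord_inv] at h0
  have hC : algebraMap K F c ≠ 0 := by
    rwa [Ne, map_eq_zero_iff _ (algebraMap K F).injective]
  have hid : t⁻¹ - algebraMap K F c
      = algebraMap K F (-c) * ((t - algebraMap K F c⁻¹) * t⁻¹) := by
    rw [map_neg, map_inv₀]
    field_simp
    ring
  have hne : t - algebraMap K F c⁻¹ ≠ 0 := RA3_sub_ne_zero ht _
  have hC' : algebraMap K F (-c) ≠ 0 := by
    rw [map_neg]; exact neg_ne_zero.mpr hC
  have hord : v.ord (t⁻¹ - algebraMap K F c) = v.ord (t - algebraMap K F c⁻¹) := by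
    rw [hid, v.ord_mul hC' (mul_ne_zero hne (inv_ne_zero ht0)), ord_algebraMap,
      v.ord_mul hne (inv_ne_zero ht0), v.ord_inv]
    omega
  rw [hord] at hv ⊢
  exact h v c⁻¹ (inv_ne_zero hc) hcS hv

/-- abstract form of the two branch conditions, finite exceptional set `S ⊆ Aˣ`. -/
theorem BH_aux {K F k Fb : Type} [Field K] [IsAlgClosed K] [CharZero K] [Field F] [Algebra K F]
    [Field k] [Field Fb] [Algebra k Fb] (D : RedData K F k Fb) {t : F} (ht : Transcendental K t)
    [FiniteDimensional K⟮t⟯ F] (S : Finset K) (hS0 : ∀ c ∈ S, c ≠ 0) (hSA : ∀ c ∈ S, c ∈ D.A)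
    (hSi : ∀ c ∈ S, c⁻¹ ∈ D.A) (hSd : ∀ c ∈ S, ∀ c' ∈ S, c ≠ c' → (c - c')⁻¹ ∈ D.A)
    (h : ∀ (v : Place K F) (c : K), c ≠ 0 → c ∉ S → 0 < v.ord (t - algebraMap K F c) →
      v.ord (t - algebraMap K F c) = 1) : Branch D t ∧ Branch D t⁻¹ := by
  classical
  constructor
  · refine Tame.branch_of_unram D ht (insert 0 S) ?_ ?_ ?_
    · intro c hc
      rcases Finset.mem_insert.1 hc with rfl | hc
      · exact D.A.zero_mem
      · exact hSA c hc
    · intro c hc c' hc' hne
      rcases Finset.mem_insert.1 hc with rfl | hc <;> rcases Finset.mem_insert.1 hc' with rfl | hc'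
      · exact absurd rfl hne
      · rw [zero_sub, inv_neg]; exact neg_mem (hSi c' hc')
      · rw [sub_zero]; exact hSi c hc
      · exact hSd c hc c' hc' hne
    · intro v c hc
      rw [Finset.mem_insert, not_or] at hc
      exact h v c hc.1 hc.2
  · haveI : FiniteDimensional K⟮t⁻¹⟯ F := placeCases_finiteDimensional_adjoin_inv t
    refine Tame.branch_of_unram D (placeCases_transcendental_inv ht)
      (insert 0 (S.image (fun c => c⁻¹))) ?_ ?_ ?_
    · intro c hc
      rcases Finset.mem_insert.1 hc with rfl | hc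
      · exact D.A.zero_mem
      · obtain ⟨d, hd, rfl⟩ := Finset.mem_image.1 hc
        exact hSi d hd
    · intro c hc c' hc' hne
      rcases Finset.mem_insert.1 hc with rfl | hc <;> rcases Finset.mem_insert.1 hc' with rfl | hc'
      · exact absurd rfl hne
      · obtain ⟨d', hd', rfl⟩ := Finset.mem_image.1 hc'
        rw [zero_sub, inv_neg, inv_inv]; exact neg_mem (hSA d' hd')
      · obtain ⟨d, hd, rfl⟩ := Finset.mem_image.1 hc
        rw [sub_zero, inv_inv]; exact hSA d hd
      · obtain ⟨d, hd, rfl⟩ := Finset.mem_image.1 hc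
        obtain ⟨d', hd', rfl⟩ := Finset.mem_image.1 hc'
        have hdd : d' ≠ d := fun e => hne (by rw [e])
        have hd0 := hS0 d hd
        have hd0' := hS0 d' hd'
        have hsub : d' - d ≠ 0 := sub_ne_zero.2 hdd
        have : (d⁻¹ - d'⁻¹)⁻¹ = d * d' * (d' - d)⁻¹ := by
          field_simp
        rw [this]
        exact mul_mem (mul_mem (hSA d hd) (hSA d' hd')) (hSd d' hd' d hd hdd)
    · intro v c hc
      rw [Finset.mem_insert, not_or] at hc
      refine BH_inv ht S h v c hc.1 ?_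
      intro hcS
      exact hc.2 (Finset.mem_image.2 ⟨c⁻¹, hcS, inv_inv c⟩)

/-- algebraic integers lie in every valuation subring. -/
theorem BH_mem_of_isIntegral (A : ValuationSubring Qb) {x : Qb} (hx : IsIntegral ℤ x) :
    x ∈ A := by
  have h1 : IsIntegral A x := hx.tower_top
  obtain ⟨y, hy⟩ := (IsIntegrallyClosed.isIntegral_iff (R := A) (K := Qb)).1 h1
  rw [← hy]
  exact y.2

/-- a root of `X² + 9 X + 27`. -/
theorem BH_exists_rho : ∃ ρ : Qb, ρ ^ 2 + 9 * ρ + 27 = 0 := by
  obtain ⟨ρ, hρ⟩ := IsAlgClosed.exists_root (X ^ 2 + 9 * X + 27 : Qb[X]) (by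
    have : (X ^ 2 + 9 * X + 27 : Qb[X]) = X ^ 2 + (C 9 * X + C 27) := by
      simp only [map_ofNat]; ring
    rw [this, degree_add_eq_left_of_degree_lt]
    · rw [degree_X_pow]; norm_num
    · rw [degree_X_pow]
      exact lt_of_le_of_lt degree_linear_le (by norm_num))
  refine ⟨ρ, ?_⟩
  simpa [IsRoot.def] using hρ

theorem BH_rho_mem (A : ValuationSubring Qb) {ρ : Qb} (hρ : ρ ^ 2 + 9 * ρ + 27 = 0) : ρ ∈ A := by
  apply BH_mem_of_isIntegral
  refine ⟨X ^ 2 + (C 9 * X + C 27), ?_, ?_⟩
  · apply monic_X_pow_add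
    exact lt_of_le_of_lt degree_linear_le (by norm_num)
  · simp only [eval₂_add, eval₂_pow, eval₂_X, eval₂_mul, eval₂_C]
    simp only [eq_intCast, Int.cast_ofNat]
    linear_combination hρ

theorem stmt_BranchHM (hC : Stmt_ChartHM) (hU : Stmt_Unram) : Stmt_BranchHM := by
  classical
  intro a N _ ℓ hℓp ha haN hℓ A hA L D hD t ht
  have hCh : Chart D t := (hC a N ℓ ha haN hℓ A hA L D hD t ht).1
  haveI : FiniteDimensional Qb⟮t⟯ (FL N) := hCh.fin
  have htr : Transcendental Qb t :=
    transcendental_of_coe (by rw [ht]; exact transcendental_tq Qb a)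
  have hℓa : ¬ ℓ ∣ a := fun h => hℓ (h.trans haN)
  have hUn := hU a N ha haN t ht
  rcases ha with rfl | rfl
  · have hn : ¬ ℓ ∣ 16 := fun h => hℓa (by
      have h2 : ℓ ∣ 2 ^ 4 := by norm_num; exact h
      have h3 : ℓ ∣ 2 := hℓp.out.dvd_of_dvd_pow h2
      exact h3.trans (by norm_num))
    have h16 : (16 : Qb) ∈ A := by exact_mod_cast natCast_mem A 16
    have h16i : (16 : Qb)⁻¹ ∈ A := by exact_mod_cast BR_inv_mem hℓp.out hA 16 hn
    refine BR_aux D htr (-16) (by norm_num) ?_ ?_ ?_
    · rw [hD.hA]; exact neg_mem h16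
    · rw [hD.hA, inv_neg]; exact neg_mem h16i
    · intro v c hc0 hc16
      refine hUn v c ?_
      simp only [cuspPoly, if_true, eval_mul, eval_X, eval_add, eval_ofNat]
      refine mul_ne_zero hc0 ?_
      intro h
      exact hc16 (by linear_combination h)
  · have hn : ¬ ℓ ∣ 27 := fun h => hℓa (by
      have h2 : ℓ ∣ 3 ^ 3 := by norm_num; exact h
      have h3 : ℓ ∣ 3 := hℓp.out.dvd_of_dvd_pow h2
      exact h3.trans (by norm_num))
    have h27i : (27 : Qb)⁻¹ ∈ A := by exact_mod_cast BR_inv_mem hℓp.out hA 27 hn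
    obtain ⟨ρ, hρ⟩ := BH_exists_rho
    have hρ' : (-9 - ρ) ^ 2 + 9 * (-9 - ρ) + 27 = 0 := by linear_combination hρ
    have hm : ρ ∈ A := BH_rho_mem A hρ
    have hm' : -9 - ρ ∈ A := BH_rho_mem A hρ'
    have h0 : ρ ≠ 0 := by
      rintro rfl
      norm_num at hρ
    have h0' : -9 - ρ ≠ 0 := by
      intro h
      rw [h] at hρ'
      norm_num at hρ'
    have hi : ρ⁻¹ = (-9 - ρ) * (27 : Qb)⁻¹ := by
      apply inv_eq_of_mul_eq_one_right
      linear_combination (-(27 : Qb)⁻¹) * hρ
    have hi' : (-9 - ρ)⁻¹ = ρ * (27 : Qb)⁻¹ := by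
      apply inv_eq_of_mul_eq_one_right
      linear_combination (-(27 : Qb)⁻¹) * hρ
    have hsq : (ρ - (-9 - ρ)) ^ 2 = -27 := by linear_combination 4 * hρ
    have hd0 : ρ - (-9 - ρ) ≠ 0 := by
      intro h
      rw [h] at hsq
      norm_num at hsq
    have hdi : (ρ - (-9 - ρ))⁻¹ = -(ρ - (-9 - ρ)) * (27 : Qb)⁻¹ := by
      apply inv_eq_of_mul_eq_one_right
      linear_combination (-(27 : Qb)⁻¹) * hsq
    have hdm : (ρ - (-9 - ρ))⁻¹ ∈ A := by
      rw [hdi]; exact mul_mem (neg_mem (sub_mem hm hm')) h27i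
    refine BH_aux D htr {ρ, -9 - ρ} ?_ ?_ ?_ ?_ ?_
    · intro c hc
      simp only [Finset.mem_insert, Finset.mem_singleton] at hc
      rcases hc with rfl | rfl
      · exact h0
      · exact h0'
    · intro c hc
      simp only [Finset.mem_insert, Finset.mem_singleton] at hc
      rw [hD.hA]
      rcases hc with rfl | rfl
      · exact hm
      · exact hm'
    · intro c hc
      simp only [Finset.mem_insert, Finset.mem_singleton] at hc
      rw [hD.hA]
      rcases hc with rfl | rfl
      · rw [hi]; exact mul_mem hm' h27i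
      · rw [hi']; exact mul_mem hm h27i
    · intro c hc c' hc' hne
      simp only [Finset.mem_insert, Finset.mem_singleton] at hc hc'
      rw [hD.hA]
      rcases hc with hc | hc <;> rcases hc' with hc' | hc'
      · exact absurd (hc.trans hc'.symm) hne
      · rw [hc, hc']; exact hdm
      · have h5 : (-9 - ρ - ρ)⁻¹ = -(ρ - (-9 - ρ))⁻¹ := by
          rw [← inv_neg]; congr 1; ring
        rw [hc, hc', h5]; exact neg_mem hdm
      · exact absurd (hc.trans hc'.symm) hne
    · intro v c hc0 hcS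
      simp only [Finset.mem_insert, Finset.mem_singleton, not_or] at hcS
      refine hUn v c ?_
      simp only [cuspPoly, show (9 : ℕ) ≠ 4 by norm_num, if_false, eval_mul, eval_X, eval_add,
        eval_pow, eval_ofNat]
      refine mul_ne_zero hc0 ?_
      have hfac : c ^ 2 + 9 * c + 27 = (c - ρ) * (c - (-9 - ρ)) := by
        linear_combination hρ
      rw [hfac]
      exact mul_ne_zero (sub_ne_zero.2 hcS.1) (sub_ne_zero.2 hcS.2)

end Fermat.Agent.S36.HM

end
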