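import Fermat.Agent.S36.HM.Mem
import Fermat.Agent.INJ.All
import Fermat.Agent.INJ.P13
import Fermat.Agent.INJ.Inst.ChartT
import Fermat.Agent.INJ.Inst.DegLemma

/-!
# S36 / HM / [CH] : `t_a` and `t_a⁻¹` are good coordinates (from `Chart D j`).
-/

set_option autoImplicit false
set_option synthInstance.maxHeartbeats 400000

noncomputable section

namespace Fermat.Agent.S36.HM

open AlgebraicCurve ModularCurve IntermediateField Polynomial Fermat.Agent.KL.Haupt
open Fermat.Agent Fermat.Agent.INJ Fermat.Agent.INJ.Inst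

section Poly

variable (K : Type) [Field K]

theorem CH_bezout {P Q a b : K[X]} (c : K) (hc : c ≠ 0) (h : a * P + b * Q = C c) :
    IsCoprime P Q := by
  refine ⟨C c⁻¹ * a, C c⁻¹ * b, ?_⟩
  have : C c⁻¹ * a * P + C c⁻¹ * b * Q = C c⁻¹ * (a * P + b * Q) := by ring
  rw [this, h, ← C_mul, inv_mul_cancel₀ hc, C_1]

theorem CH_coprime4 [CharZero K] : IsCoprime (jNumP 4 K) (jDenP 4 K) := by
  simp only [jNumP, jDenP, if_true]
  apply IsCoprime.pow_left
  apply IsCoprime.mul_right
  · apply IsCoprime.pow_right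
    refine CH_bezout K (a := 1) (b := -(X + 256)) 4096 (by norm_num) ?_
    rw [map_ofNat]; ring
  · refine CH_bezout K (a := 1) (b := -(X + 240)) 256 (by norm_num) ?_
    rw [map_ofNat]; ring

theorem CH_coprime9 [CharZero K] : IsCoprime (jNumP 9 K) (jDenP 9 K) := by
  simp only [jNumP, jDenP, show (9 : ℕ) ≠ 4 by norm_num, if_false]
  apply IsCoprime.pow_left
  apply IsCoprime.mul_left
  · apply IsCoprime.mul_right
    · apply IsCoprime.pow_right
      refine CH_bezout K (a := 1) (b := -1) 9 (by norm_num) ?_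
      rw [map_ofNat]; ring
    · refine CH_bezout K (a := -X) (b := 1) 27 (by norm_num) ?_
      rw [map_ofNat]; ring
  · apply IsCoprime.mul_right
    · apply IsCoprime.pow_right
      refine CH_bezout K (a := 1) (b := -(X ^ 2 + 243 * X + 2187)) 6561 (by norm_num) ?_
      rw [map_ofNat]; ring
    · refine CH_bezout K (a := -(2 * X + 9)) (b := 108 + (2 * X + 9) * (X + 234)) 729
        (by norm_num) ?_
      rw [map_ofNat]; ring

theorem CH_coprime [CharZero K] {a : ℕ} (ha : a = 4 ∨ a = 9) :
    IsCoprime (jNumP a K) (jDenP a K) := by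
  rcases ha with rfl | rfl
  · exact CH_coprime4 K
  · exact CH_coprime9 K

theorem CH_monic_num {a : ℕ} : (jNumP a K).Monic := by
  unfold jNumP
  split_ifs
  · apply Monic.pow
    monicity!
  · apply Monic.pow
    apply Monic.mul <;> monicity!

theorem CH_monic_den {a : ℕ} : (jDenP a K).Monic := by
  unfold jDenP
  split_ifs
  · apply Monic.mul <;> monicity!
  · apply Monic.mul <;> monicity!

theorem CH_natDegree_num {a : ℕ} : (jNumP a K).natDegree = if a = 4 then 6 else 12 := by
  unfold jNumP
  split_ifs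
  · have h : (X ^ 2 + 256 * X + 4096 : K[X]).Monic := by monicity!
    rw [h.natDegree_pow]
    have : (X ^ 2 + 256 * X + 4096 : K[X]).natDegree = 2 := by compute_degree!
    rw [this]
  · have h1 : (X + 9 : K[X]).Monic := by monicity!
    have h2 : (X ^ 3 + 243 * X ^ 2 + 2187 * X + 6561 : K[X]).Monic := by monicity!
    rw [(h1.mul h2).natDegree_pow, h1.natDegree_mul h2]
    have e1 : (X + 9 : K[X]).natDegree = 1 := by compute_degree!
    have e2 : (X ^ 3 + 243 * X ^ 2 + 2187 * X + 6561 : K[X]).natDegree = 3 := by compute_degree!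
    rw [e1, e2]

theorem CH_natDegree_den {a : ℕ} : (jDenP a K).natDegree = if a = 4 then 5 else 11 := by
  unfold jDenP
  split_ifs
  · have h1 : (X ^ 4 : K[X]).Monic := monic_X_pow 4
    have h2 : (X + 16 : K[X]).Monic := by monicity!
    rw [h1.natDegree_mul h2, natDegree_X_pow]
    have e1 : (X + 16 : K[X]).natDegree = 1 := by compute_degree!
    rw [e1]
  · have h1 : (X ^ 9 : K[X]).Monic := monic_X_pow 9
    have h2 : (X ^ 2 + 9 * X + 27 : K[X]).Monic := by monicity!
    rw [h1.natDegree_mul h2, natDegree_X_pow]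
    have e1 : (X ^ 2 + 9 * X + 27 : K[X]).natDegree = 2 := by compute_degree!
    rw [e1]

theorem CH_deg_lt {a : ℕ} : (jDenP a K).natDegree < (jNumP a K).natDegree := by
  rw [CH_natDegree_num, CH_natDegree_den]
  split_ifs <;> norm_num

/-- the relation in an intermediate field of `K((q))`. -/
theorem CH_rel {a : ℕ} (ha : a = 4 ∨ a = 9) (E : IntermediateField K (LaurentSeries K)) (s t : E)
    (hs : (s : LaurentSeries K) = S28.jd K 1) (ht : (t : LaurentSeries K) = tq a K) :
    s * aeval t (jDenP a K) = aeval t (jNumP a K) := by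
  apply Subtype.ext
  rcases ha with rfl | rfl
  · have := r4_j1 K
    simp only [jDenP, jNumP, tq, if_true] at ht ⊢
    simp only [map_add, map_mul, map_pow, aeval_X, map_ofNat]
    push_cast
    rw [ht, hs]
    exact this
  · have := r9_j1 K
    simp only [jDenP, jNumP, tq, show (9 : ℕ) ≠ 4 by norm_num, if_false] at ht ⊢
    simp only [map_add, map_mul, map_pow, aeval_X, map_ofNat]
    push_cast
    rw [ht, hs]
    exact this

end Poly

/-- **[CH]**. -/
theorem stmt_ChartHM (hCJ : Stmt_ChartJ) : Stmt_ChartHM := by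
  intro a N _ ℓ _ ha haN hℓ A hA L D hD t ht
  have hN : N ≠ 0 := NeZero.ne N
  set s : FL N := ⟨S28.jd Qb 1, jd_mem_bar hN (one_dvd N)⟩ with hs
  have hCs : Chart D s := hCJ N ℓ hℓ A hA L D hD s rfl
  obtain ⟨htO, htb⟩ := hD.mem_rd (tq a A) t (by rw [ht, coeffMap_tq])
  rw [coeffMap_tq] at htb
  obtain ⟨-, hsb⟩ := hD.s_mem_rd 1 s rfl
  have htr : Transcendental Qb t := transcendental_of_coe (by rw [ht]; exact transcendental_tq Qb a)
  have htrb : Transcendental (kA A) (D.rd t) :=
    transcendental_of_coe (by rw [htb]; exact transcendental_tq _ a)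
  have hC : Chart D t := by
    refine CT_aux all_ChartTower stmt_DegLemma D s t hCs htO htr htrb (jNumP a Qb) (jDenP a Qb)
      (CH_coprime Qb ha) (CH_deg_lt Qb) (CH_monic_den Qb).ne_zero
      (CH_rel Qb ha _ s t rfl ht) (jNumP a (kA A)) (jDenP a (kA A)) (CH_monic_num _) ?_
      (CH_deg_lt _) (CH_monic_den _).ne_zero (CH_rel (kA A) ha L _ _ hsb htb)
    rw [CH_natDegree_num, CH_natDegree_num]
  exact ⟨hC, stmt_ChartInv _ _ _ _ D t hC⟩

end Fermat.Agent.S36.HM

end
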