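import Fermat.Agent.S36.HM.Interface
import Fermat.Agent.INJ.Inst.AllInst
import Fermat.Agent.INJ.P15
import Fermat.Agent.INJ.P17

/-!
# S36 / HM / [CJ] : `j(q)` is a good coordinate (via `ChartSwap` from `s₀ = j(q^N)`).
-/

set_option autoImplicit false
set_option synthInstance.maxHeartbeats 400000

noncomputable section

namespace Fermat.Agent.S36.HM

open AlgebraicCurve ModularCurve IntermediateField Polynomial
open Fermat.Agent Fermat.Agent.INJ Fermat.Agent.INJ.Inst

set_option maxHeartbeats 1000000 in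
/-- **[CJ]**. -/
theorem stmt_ChartJ (hI : Stmt_JInt) : Stmt_ChartJ := by
  intro N _ ℓ _ hℓN A hA L D hG s hs
  have hAC : IsAlgClosed (kA A) := S18G.isAlgClosed_kA A
  have hN : N ≠ 0 := NeZero.ne N
  set s0 : FL N := ⟨S28.jd Qb N, jd_mem_bar hN dvd_rfl⟩ with hs0
  have hCs0 : Chart D s0 := all_ChartS N ℓ hℓN A hA L D hG s0 rfl
  obtain ⟨hsO, hsrd⟩ := hG.s_mem_rd 1 s hs
  have htr : Transcendental (kA A) (D.rd s) :=
    transcendental_of_coe (by rw [hsrd]; exact CS.transcendental_jd (kA A) 1)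
  have hsj : s = S24.jF N := Subtype.ext (by rw [hs, coe_jF])
  have hfin : FiniteDimensional Qb⟮s⟯ (FL N) := by
    rw [hsj]
    exact (S24.finrank_FF_le N).1
  have hresfin : FiniteDimensional (kA A)⟮D.rd s⟯ L := stmt_ResFinite _ _ _ _ D s hsO htr hfin
  obtain ⟨h1, h2⟩ := hI N A s0 s rfl hs
  refine ⟨hsO, htr, hfin, ?_, ?_⟩
  · have hDA : D.A = A := hG.hA
    refine stmt_ChartSwap stmt_Gauss all_Ortho all_BBasis _ _ _ _ D s0 s hCs0 hsO htr hfin ?_ ?_
    · rw [hDA]; exact h1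
    · rw [hDA]; exact h2
  · refine stmt_Sep_of_SepL stmt_SepL (kA A) L (D.rd s) ⟨-1, ?_⟩ inferInstance
    rw [hsrd]
    have h3 : (S28.jd (kA A) 1).coeff (-1) = 1 := by
      have := coeff_jd (kA A) (N := 1) one_ne_zero
      simpa using this
    rw [h3, mul_one]
    push_cast
    exact neg_ne_zero.2 one_ne_zero

end Fermat.Agent.S36.HM

end
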