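import Fermat.Agent.S36.HM.Interface

/-!
# S36 / HM, package [RG] : the abstract ramification lemma.

`Stmt_RamGen` is FALSE as stated in the degenerate case where `s` is a constant (e.g. `P₀ = Q = 1`,
`P₁ = √(-1727)`, `s = 1`, `t` arbitrary: `JRam s` is then empty).  We prove the primed statement
`Stmt_RamGen'`, with the extra hypothesis `Q.natDegree < (P₀ ^ 3).natDegree` (true in both
applications).
-/

set_option autoImplicit false

namespace Fermat.Agent.S36.HM

open AlgebraicCurve Polynomial Fermat.Agent.INJ.Inst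

/-- [RG'] pure algebra: `s = P(t)/Q(t)` with `P = P₀³`, `deg Q < deg P`, `P - 1728 Q = P₁²` and `s`
has the ramification pattern of `j`: then `t` is unramified at all points where `Q ≠ 0`. -/
def Stmt_RamGen' : Prop :=
  ∀ (K F : Type) [Field K] [CharZero K] [Field F] [Algebra K F] (s t : F) (P₀ P₁ Q : K[X]),
    Transcendental K t → s * aeval t Q = aeval t P₀ ^ 3 → P₀ ^ 3 - 1728 * Q = P₁ ^ 2 →
    Q.natDegree < (P₀ ^ 3).natDegree → JRam (K := K) s →
    ∀ (v : Place K F) (c : K), Q.eval c ≠ 0 → 0 < v.ord (t - algebraMap K F c) →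
      v.ord (t - algebraMap K F c) = 1

/-- the order of `G(t)` at a zero of `t - c`. -/
theorem RG_ord {K F : Type} [Field K] [Field F] [Algebra K F] {V : F → ℤ} (hV : S24.IsVal K V)
    {t : F} {c : K} (hy0 : t - algebraMap K F c ≠ 0) (hv : 0 < V (t - algebraMap K F c))
    (G : K[X]) (hG : G ≠ 0) :
    aeval t G ≠ 0 ∧ ∃ m : ℕ, V (aeval t G) = (m : ℤ) * V (t - algebraMap K F c) ∧
      (G.eval c ≠ 0 → m = 0) ∧ (G.eval c = 0 → 1 ≤ m) := by
  have hG' : G.comp (X + C c) ≠ 0 := by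
    rw [Ne, comp_X_add_C_eq_zero_iff]; exact hG
  have he : aeval (t - algebraMap K F c) (G.comp (X + C c)) = aeval t G := by
    rw [aeval_comp, map_add, aeval_X, aeval_C, sub_add_cancel]
  have hev : (G.comp (X + C c)).eval 0 = G.eval c := by
    rw [eval_comp, eval_add, eval_X, eval_C, zero_add]
  obtain ⟨h1, h2⟩ := hV.aeval_of_ne_zero hy0 hv _ hG'
  rw [he] at h1 h2
  refine ⟨h1, _, h2, fun h => ?_, fun h => ?_⟩
  · exact rootMultiplicity_eq_zero (by rw [IsRoot.def, hev]; exact h)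
  · exact (rootMultiplicity_pos hG').2 (by rw [IsRoot.def, hev]; exact h)

theorem RG_eq_one {m : ℕ} {e : ℤ} (hm : 1 ≤ m) (he : 0 < e) (h : (m : ℤ) * e = 1) : e = 1 := by
  have hm' : (1 : ℤ) ≤ m := by exact_mod_cast hm
  nlinarith

theorem RG_eq_one_of_dvd {n : ℤ} {m : ℕ} {e : ℤ} (hn : 0 < n) (hm : 1 ≤ m) (he : 0 < e)
    (h : n * ((m : ℤ) * e) ∣ n) : e = 1 := by
  have hm' : (1 : ℤ) ≤ m := by exact_mod_cast hm
  have h1 : n * ((m : ℤ) * e) ≤ n := Int.le_of_dvd hn h
  have h2 : (m : ℤ) * e ≤ 1 := by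
    by_contra hc
    have : 2 ≤ (m : ℤ) * e := by omega
    nlinarith
  nlinarith

theorem stmt_RamGen' : Stmt_RamGen' := by
  intro K F _ _ _ _ s t P₀ P₁ Q ht hst hP hdeg hJ v c hQc hv
  have hV := S24.isVal_ord v
  have hy0 : t - algebraMap K F c ≠ 0 := by
    intro h
    have h1 : aeval t (X - C c : K[X]) = 0 := by simpa using h
    exact X_sub_C_ne_zero c ((transcendental_iff.1 ht) _ h1)
  have hQ0 : Q ≠ 0 := by
    rintro rfl
    simp at hQc
  have hP0 : P₀ ≠ 0 := by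
    rintro rfl
    simp at hdeg
  obtain ⟨c0, hc0def⟩ : ∃ c0 : K, c0 = P₀.eval c ^ 3 / Q.eval c := ⟨_, rfl⟩
  have hc0mul : c0 * Q.eval c = P₀.eval c ^ 3 := by rw [hc0def]; field_simp
  obtain ⟨H, hH⟩ : ∃ H : K[X], H = P₀ ^ 3 - C c0 * Q := ⟨_, rfl⟩
  have hH0 : H ≠ 0 := by
    intro h
    rw [h] at hH
    have h1 : P₀ ^ 3 = C c0 * Q := (sub_eq_zero.1 hH.symm)
    rw [h1] at hdeg
    exact absurd (natDegree_C_mul_le c0 Q) (not_le.2 hdeg)
  have hHc : H.eval c = 0 := by
    rw [hH, eval_sub, eval_pow, eval_mul, eval_C, hc0mul, sub_self]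
  have hkey : (s - algebraMap K F c0) * aeval t Q = aeval t H := by
    rw [sub_mul, hst, hH, map_sub, map_pow, map_mul, aeval_C]
  obtain ⟨hQt0, mQ, hQt, hmQ, -⟩ := RG_ord hV hy0 hv Q hQ0
  rw [hmQ hQc, Nat.cast_zero, zero_mul] at hQt
  obtain ⟨hHt0, mH, hHt, -, hmH⟩ := RG_ord hV hy0 hv H hH0
  have hmH1 := hmH hHc
  have hs0 : s - algebraMap K F c0 ≠ 0 := by
    intro h
    rw [h, zero_mul] at hkey
    exact hHt0 hkey.symm
  have hord : v.ord (s - algebraMap K F c0) = (mH : ℤ) * v.ord (t - algebraMap K F c) := by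
    have h := congrArg v.ord hkey
    rw [hV.map_mul _ _ hs0 hQt0, hQt, add_zero, hHt] at h
    exact h
  have hpos : 0 < v.ord (s - algebraMap K F c0) := by
    rw [hord]
    have : (1 : ℤ) ≤ mH := by exact_mod_cast hmH1
    positivity
  obtain ⟨hJ0, hJ1, hJ2⟩ := hJ c0 v hpos
  by_cases hz : c0 = 0
  · -- `P₀(c) = 0`
    have hP0c : P₀.eval c = 0 := by
      rw [hz, zero_mul] at hc0mul
      exact pow_eq_zero_iff (n := 3) (by norm_num) |>.1 hc0mul.symm
    obtain ⟨hPt0, m0, hPt, -, hm0⟩ := RG_ord hV hy0 hv P₀ hP0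
    have h3 : v.ord (s - algebraMap K F c0)
        = 3 * ((m0 : ℤ) * v.ord (t - algebraMap K F c)) := by
      have e : (s - algebraMap K F c0) * aeval t Q = aeval t P₀ ^ 3 := by
        rw [hz, map_zero, sub_zero, hst]
      have h := congrArg v.ord e
      rw [hV.map_mul _ _ hs0 hQt0, hQt, add_zero, hV.map_pow hPt0, hPt] at h
      exact_mod_cast h
    have hd := hJ0 hz
    rw [h3] at hd
    exact RG_eq_one_of_dvd (by norm_num) (hm0 hP0c) hv hd
  · by_cases hz' : c0 = 1728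
    · have hHP : H = P₁ ^ 2 := by
        rw [hH, hz', ← hP, map_ofNat]
      have hP10 : P₁ ≠ 0 := by
        rintro rfl
        exact hH0 (by rw [hHP]; simp)
      have hP1c : P₁.eval c = 0 := by
        rw [hHP, eval_pow] at hHc
        exact pow_eq_zero_iff (n := 2) (by norm_num) |>.1 hHc
      obtain ⟨hPt0, m1, hPt, -, hm1⟩ := RG_ord hV hy0 hv P₁ hP10
      have h2 : v.ord (s - algebraMap K F c0)
          = 2 * ((m1 : ℤ) * v.ord (t - algebraMap K F c)) := by
        have e : (s - algebraMap K F c0) * aeval t Q = aeval t P₁ ^ 2 := by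
          rw [hkey, hHP, map_pow]
        have h := congrArg v.ord e
        rw [hV.map_mul _ _ hs0 hQt0, hQt, add_zero, hV.map_pow hPt0, hPt] at h
        exact_mod_cast h
      have hd := hJ1 hz'
      rw [h2] at hd
      exact RG_eq_one_of_dvd (by norm_num) (hm1 hP1c) hv hd
    · have h1 := hJ2 hz hz'
      rw [hord] at h1
      exact RG_eq_one hmH1 hv h1

end Fermat.Agent.S36.HM
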