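import Fermat.Agent.S36.HM.ChartHM
import Fermat.Agent.S36.HM.RamGen
import Fermat.Agent.INJ.Inst.RamJ

/-!
# S36 / HM / [UR] : `FL N` is unramified over the `t`-line outside the cusps.
-/

set_option autoImplicit false

noncomputable section

namespace Fermat.Agent.S36.HM

open AlgebraicCurve ModularCurve IntermediateField Polynomial Fermat.Agent.KL.Haupt
open Fermat.Agent Fermat.Agent.INJ Fermat.Agent.INJ.Inst

/-- cube root of `jNumP`. -/
def UR_P0 (a : ℕ) (K : Type) [CommRing K] : K[X] :=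
  if a = 4 then X ^ 2 + 256 * X + 4096 else (X + 9) * (X ^ 3 + 243 * X ^ 2 + 2187 * X + 6561)

/-- square root of `jNumP - 1728 jDenP`. -/
def UR_P1 (a : ℕ) (K : Type) [CommRing K] : K[X] :=
  if a = 4 then (X + 32) * (X ^ 2 - 512 * X - 8192)
  else (X + 9) ^ 6 - 540 * ((X + 9) ^ 3 * (X ^ 2 + 9 * X + 27)) - 5832 * (X ^ 2 + 9 * X + 27) ^ 2

theorem UR_P0_cube (a : ℕ) (K : Type) [CommRing K] : UR_P0 a K ^ 3 = jNumP a K := by
  unfold UR_P0 jNumP
  split_ifs <;> rfl

theorem UR_P1_sq (a : ℕ) (K : Type) [CommRing K] :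
    UR_P0 a K ^ 3 - 1728 * jDenP a K = UR_P1 a K ^ 2 := by
  unfold UR_P0 UR_P1 jDenP
  split_ifs <;> ring

/-- **[UR]**. -/
theorem stmt_Unram : Stmt_Unram := by
  intro a N _ ha haN t ht v c hc hv
  have hJ : JRam (K := Qb) (S24.jF N) := stmt_RamJ stmt_RamUnif N
  have htr : Transcendental Qb t := transcendental_of_coe (by rw [ht]; exact transcendental_tq Qb a)
  refine stmt_RamGen' Qb (FL N) (S24.jF N) t (UR_P0 a Qb) (UR_P1 a Qb) (jDenP a Qb) htr ?_
    (UR_P1_sq a Qb) ?_ hJ v c ?_ hv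
  · rw [← map_pow, UR_P0_cube]
    exact CH_rel Qb ha _ _ t (coe_jF N) ht
  · rw [UR_P0_cube]
    exact CH_deg_lt Qb
  · intro h
    apply hc
    rcases ha with rfl | rfl
    · simp only [jDenP, cuspPoly, if_true] at h ⊢
      simp only [eval_mul, eval_pow, eval_add, eval_X, eval_ofNat] at h ⊢
      rcases mul_eq_zero.1 h with h | h
      · rw [pow_eq_zero_iff (by norm_num)] at h
        rw [h, zero_mul]
      · rw [h, mul_zero]
    · simp only [jDenP, cuspPoly, show (9 : ℕ) ≠ 4 by norm_num, if_false] at h ⊢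
      simp only [eval_mul, eval_pow, eval_add, eval_X, eval_ofNat] at h ⊢
      rcases mul_eq_zero.1 h with h | h
      · rw [pow_eq_zero_iff (by norm_num)] at h
        rw [h, zero_mul]
      · rw [h, mul_zero]

end Fermat.Agent.S36.HM

end
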