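import Fermat.Agent.S36.HM.JInt
import Fermat.Agent.S36.HM.ChartJ
import Fermat.Agent.S36.HM.ChartHM
import Fermat.Agent.S36.HM.Unram
import Fermat.Agent.S36.HM.BranchHM

/-!
# S36 / HM : assembly.  All statements of the Hauptmodul package, unconditionally.
-/

set_option autoImplicit false

namespace Fermat.Agent.S36.HM

theorem all_JInt : Stmt_JInt := stmt_JInt

theorem all_ChartJ : Stmt_ChartJ := stmt_ChartJ all_JInt

theorem all_ChartHM : Stmt_ChartHM := stmt_ChartHM all_ChartJ

theorem all_Unram : Stmt_Unram := stmt_Unram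

theorem all_BranchHM : Stmt_BranchHM := stmt_BranchHM all_ChartHM all_Unram

end Fermat.Agent.S36.HM
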