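import Fermat.Agent.S36.HM.Rel
import Fermat.Agent.INJ.Inst.Interface
import Fermat.Agent.INJ.Interface2

/-!
# S36 / HM : statements of the Hauptmodul package (level `a ∈ {4, 9}`, standard coordinate `q`).

`t = tq a` is the Hauptmodul of `X₀(a)`; `a ∣ N`, `ℓ ∤ N`; `D` a Gauss reduction datum on `FL N`.
Output: `Chart D t`, `Chart D t⁻¹`, `Branch D t`, `Branch D t⁻¹` (so `INJ.all_Normal` applies to both
charts), and the characteristic zero facts on places.
-/

set_option autoImplicit false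
set_option synthInstance.maxHeartbeats 400000

noncomputable section

namespace Fermat.Agent.S36.HM

open AlgebraicCurve ModularCurve IntermediateField Polynomial Fermat.Agent.KL.Haupt
open Fermat.Agent Fermat.Agent.INJ Fermat.Agent.INJ.Inst

/-- the Hauptmodul of level `a ∈ {4, 9}`: `η(z)^8/η(4z)^8`, resp. `η(z)^3/η(9z)^3`. -/
def tq (a : ℕ) (R : Type) [CommRing R] : LaurentSeries R := if a = 4 then tq4 R else tq9 R

/-- the polynomial whose roots are the finite cusps: `X (X + 16)`, resp. `X (X² + 9 X + 27)`. -/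
def cuspPoly (a : ℕ) (K : Type) [CommRing K] : K[X] :=
  if a = 4 then X * (X + 16) else X * (X ^ 2 + 9 * X + 27)

/-- numerator of `j` as a function of `t`. -/
def jNumP (a : ℕ) (K : Type) [CommRing K] : K[X] :=
  if a = 4 then (X ^ 2 + 256 * X + 4096) ^ 3
  else ((X + 9) * (X ^ 3 + 243 * X ^ 2 + 2187 * X + 6561)) ^ 3

/-- denominator of `j` as a function of `t`. -/
def jDenP (a : ℕ) (K : Type) [CommRing K] : K[X] :=
  if a = 4 then X ^ 4 * (X + 16) else X ^ 9 * (X ^ 2 + 9 * X + 27)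

/-- [MEM] `t ∈ FL N`. -/
def Stmt_Mem : Prop :=
  ∀ (a N : ℕ) [NeZero N], (a = 4 ∨ a = 9) → a ∣ N → tq a Qb ∈ modularFunctionFieldBar N

/-- [INT] `j(q)` and `j(q^N)` are integral over each other's polynomial rings (over any `A`). -/
def Stmt_JInt : Prop :=
  ∀ (N : ℕ) [NeZero N] (A : ValuationSubring Qb) (s t : FL N),
    (s : LaurentSeries Qb) = S28.jd Qb N → (t : LaurentSeries Qb) = S28.jd Qb 1 →
    IsIntegral (Algebra.adjoin A ({s} : Set (FL N))) t ∧
    IsIntegral (Algebra.adjoin A ({t} : Set (FL N))) s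

/-- [CJ] `j(q)` is a good coordinate. -/
def Stmt_ChartJ : Prop :=
  ∀ (N : ℕ) [NeZero N] (ℓ : ℕ) [Fact ℓ.Prime], ¬ ℓ ∣ N →
    ∀ A : ValuationSubring Qb, A.LiesOverPrime ℓ →
    ∀ (L : IntermediateField (kA A) (LaurentSeries (kA A))) (D : RedData Qb (FL N) (kA A) L),
      IsGauss N A L D → ∀ s : FL N, (s : LaurentSeries Qb) = S28.jd Qb 1 → Chart D s

/-- [CH] `t` and `t⁻¹` are good coordinates. -/
def Stmt_ChartHM : Prop :=
  ∀ (a N : ℕ) [NeZero N] (ℓ : ℕ) [Fact ℓ.Prime], (a = 4 ∨ a = 9) → a ∣ N → ¬ ℓ ∣ N →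
    ∀ A : ValuationSubring Qb, A.LiesOverPrime ℓ →
    ∀ (L : IntermediateField (kA A) (LaurentSeries (kA A))) (D : RedData Qb (FL N) (kA A) L),
      IsGauss N A L D → ∀ t : FL N, (t : LaurentSeries Qb) = tq a Qb → Chart D t ∧ Chart D t⁻¹

/-- [RG] pure algebra: `s = P(t)/Q(t)` with `P = P₀³`, `P - 1728 Q = P₁²` and `s` has the
ramification pattern of `j`: then `t` is unramified at all points where `Q ≠ 0`. -/
def Stmt_RamGen : Prop :=
  ∀ (K F : Type) [Field K] [CharZero K] [Field F] [Algebra K F] (s t : F) (P₀ P₁ Q : K[X]),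
    Transcendental K t → s * aeval t Q = aeval t P₀ ^ 3 → P₀ ^ 3 - 1728 * Q = P₁ ^ 2 →
    JRam (K := K) s →
    ∀ (v : Place K F) (c : K), Q.eval c ≠ 0 → 0 < v.ord (t - algebraMap K F c) →
      v.ord (t - algebraMap K F c) = 1

/-- [UR] `FL N` is unramified over the `t`-line outside the cusps. -/
def Stmt_Unram : Prop :=
  ∀ (a N : ℕ) [NeZero N], (a = 4 ∨ a = 9) → a ∣ N →
    ∀ t : FL N, (t : LaurentSeries Qb) = tq a Qb →
    ∀ (v : Place Qb (FL N)) (c : Qb), (cuspPoly a Qb).eval c ≠ 0 →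
      0 < v.ord (t - algebraMap Qb (FL N) c) → v.ord (t - algebraMap Qb (FL N) c) = 1

/-- [CU] the cusps: a place is a pole of `j` iff it is a pole of `t` or a zero of `cuspPoly(t)`. -/
def Stmt_Cusp : Prop :=
  ∀ (a N : ℕ) [NeZero N], (a = 4 ∨ a = 9) → a ∣ N →
    ∀ t : FL N, (t : LaurentSeries Qb) = tq a Qb → ∀ v : Place Qb (FL N),
      v.ord (S24.jF N) < 0 ↔ (v.ord t < 0 ∨ 0 < v.ord (aeval t (cuspPoly a Qb)))

/-- [BH] the branch conditions for `t` and `t⁻¹`. -/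
def Stmt_BranchHM : Prop :=
  ∀ (a N : ℕ) [NeZero N] (ℓ : ℕ) [Fact ℓ.Prime], (a = 4 ∨ a = 9) → a ∣ N → ¬ ℓ ∣ N →
    ∀ A : ValuationSubring Qb, A.LiesOverPrime ℓ →
    ∀ (L : IntermediateField (kA A) (LaurentSeries (kA A))) (D : RedData Qb (FL N) (kA A) L),
      IsGauss N A L D → ∀ t : FL N, (t : LaurentSeries Qb) = tq a Qb →
      Branch D t ∧ Branch D t⁻¹

/-- [ETA] identification with the eta quotients (formal):
`q t₄ ∏(1-q^(4n))^8 = ∏(1-q^n)^8`, `q t₉ ∏(1-q^(9n))^3 = ∏(1-q^n)^3`. -/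
def Stmt_Eta : Prop :=
  (∀ (R : Type) [CommRing R], tq4 R * lau R (PowerSeries.X *
      PowerSeries.expand 4 four_ne_zero etaProd ^ 8) = lau R (etaProd ^ 8)) ∧
  (∀ (R : Type) [CommRing R], tq9 R * lau R (PowerSeries.X *
      PowerSeries.expand 9 (by norm_num) etaProd ^ 3) = lau R (etaProd ^ 3))

section Basic

variable {R S : Type} [CommRing R] [CommRing S]

theorem coeffMap_tq (f : R →+* S) (a : ℕ) : coeffMap f (tq a R) = tq a S := by
  unfold tq
  split_ifs
  · exact coeffMap_tq4 f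
  · exact coeffMap_tq9 f

variable (R)

theorem coeff_tq_neg_one (a : ℕ) : (tq a R).coeff (-1) = 1 := by
  unfold tq
  split_ifs
  · exact coeff_tq4_neg_one R
  · exact coeff_tq9_neg_one R

theorem coeff_tq_of_lt (a : ℕ) {n : ℤ} (hn : n < -1) : (tq a R).coeff n = 0 := by
  unfold tq
  split_ifs
  · exact coeff_tq4_of_lt R hn
  · exact coeff_tq9_of_lt R hn

/-- `j(q) · jDenP(t) = jNumP(t)`. -/
theorem rel_j (a : ℕ) (ha : a = 4 ∨ a = 9) :
    S28.jd R 1 * (jDenP a ℤ).eval₂ (Int.castRingHom (LaurentSeries R)) (tq a R)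
      = (jNumP a ℤ).eval₂ (Int.castRingHom (LaurentSeries R)) (tq a R) := by
  rcases ha with rfl | rfl
  · simp only [jDenP, jNumP, tq, if_true]
    simp only [eval₂_mul, eval₂_pow, eval₂_add, eval₂_X, eval₂_ofNat]
    exact r4_j1 R
  · simp only [jDenP, jNumP, tq, show (9 : ℕ) ≠ 4 by norm_num, if_false]
    simp only [eval₂_mul, eval₂_pow, eval₂_add, eval₂_X, eval₂_ofNat]
    exact r9_j1 R

end Basic

theorem transcendental_tq (k : Type) [Field k] (a : ℕ) : Transcendental k (tq a k) :=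
  transcendental_of_coeff k (n := -1) (by norm_num) (by rw [coeff_tq_neg_one]; exact one_ne_zero)

end Fermat.Agent.S36.HM

end
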