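import Fermat.Agent.S36.HM.Interface
import Fermat.Agent.S28.FN7f
import Fermat.Agent.S28.Tower

/-!
# S36 / HM / INT : `j(q)` and `j(q^N)` are integral over each other's polynomial rings
-/

set_option autoImplicit false

noncomputable section

namespace Fermat.Agent.S36.HM

open AlgebraicCurve ModularCurve IntermediateField Polynomial
open Fermat.Agent Fermat.Agent.INJ Fermat.Agent.INJ.Inst

section Abstract

variable {R R' : Type*} [CommRing R] [CommRing R']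

/-- `ℤ[Y] → R`, `Y ↦ y`. -/
def JInt_ev (y : R) : ℤ[X] →+* R := Polynomial.eval₂RingHom (Int.castRingHom R) y

/-- `x` is a root of a monic polynomial with coefficients in `ℤ[y]`. -/
def JInt_Rel (x y : R) : Prop := ∃ Ψ : ℤ[X][X], Ψ.Monic ∧ Ψ.eval₂ (JInt_ev y) x = 0

theorem JInt_comp_ev (φ : R →+* R') (y : R) : φ.comp (JInt_ev y) = JInt_ev (φ y) := by
  apply Polynomial.ringHom_ext
  · intro a
    simp [JInt_ev]
  · simp [JInt_ev]

theorem JInt_Rel.map (φ : R →+* R') {x y : R} (h : JInt_Rel x y) : JInt_Rel (φ x) (φ y) := by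
  obtain ⟨Ψ, hΨ, h0⟩ := h
  refine ⟨Ψ, hΨ, ?_⟩
  rw [← JInt_comp_ev, ← Polynomial.hom_eval₂, h0, map_zero]

theorem JInt_Rel.of_map (φ : R →+* R') (hφ : Function.Injective φ) {x y : R}
    (h : JInt_Rel (φ x) (φ y)) : JInt_Rel x y := by
  obtain ⟨Ψ, hΨ, h0⟩ := h
  refine ⟨Ψ, hΨ, hφ ?_⟩
  rw [Polynomial.hom_eval₂, JInt_comp_ev, h0, map_zero]

theorem JInt_Rel.isIntegral (B : Type*) [CommRing B] [Algebra B R] {x y : R} (h : JInt_Rel x y) :
    IsIntegral (Algebra.adjoin B ({y} : Set R)) x := by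
  obtain ⟨Ψ, hΨ, h0⟩ := h
  let y' : Algebra.adjoin B ({y} : Set R) := ⟨y, Algebra.self_mem_adjoin_singleton B y⟩
  refine ⟨Ψ.map (JInt_ev y'), hΨ.map _, ?_⟩
  rw [Polynomial.eval₂_map, JInt_comp_ev]
  exact h0

theorem JInt_Rel.of_isIntegral {x y : R} (h : IsIntegral (Algebra.adjoin ℤ ({y} : Set R)) x) :
    JInt_Rel x y := by
  rcases subsingleton_or_nontrivial R with hR | hR
  · exact ⟨1, monic_one, Subsingleton.elim _ _⟩
  obtain ⟨p, hp, h0⟩ := h
  let y' : Algebra.adjoin ℤ ({y} : Set R) := ⟨y, Algebra.self_mem_adjoin_singleton ℤ y⟩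
  have hsurj : Function.Surjective (JInt_ev y') := by
    intro a
    have ha : (a : R) ∈ (Polynomial.aeval y : ℤ[X] →ₐ[ℤ] R).range := by
      rw [← Algebra.adjoin_singleton_eq_range_aeval]
      exact a.2
    obtain ⟨q, hq⟩ := ha
    refine ⟨q, Subtype.ext ?_⟩
    have h1 := congrArg (fun f : ℤ[X] →+* R => f q)
      (JInt_comp_ev (algebraMap (Algebra.adjoin ℤ ({y} : Set R)) R) y')
    have h2 : JInt_ev y q = Polynomial.aeval y q := by
      simp [JInt_ev, Polynomial.aeval_def]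
    have h3 : (Polynomial.aeval y : ℤ[X] →ₐ[ℤ] R) q = (a : R) := hq
    rw [← h3, ← h2]
    exact h1
  have hl : p ∈ Polynomial.lifts (JInt_ev y') := by
    rw [Polynomial.lifts_iff_coeff_lifts]
    intro n
    exact hsurj _
  obtain ⟨Ψ, hΨ, -, hm⟩ := Polynomial.lifts_and_degree_eq_and_monic hl hp
  refine ⟨Ψ, hm, ?_⟩
  rw [← hΨ, Polynomial.eval₂_map, JInt_comp_ev] at h0
  exact h0

theorem JInt_Rel.trans {x y z : R} (hzy : JInt_Rel z y) (hyx : JInt_Rel y x) : JInt_Rel z x := by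
  apply JInt_Rel.of_isIntegral
  have hy := hyx.isIntegral ℤ
  have hz := hzy.isIntegral ℤ
  set R₀ := Algebra.adjoin ℤ ({x} : Set R) with hR
  let C : Subalgebra R₀ R := integralClosure R₀ R
  have hle : ∀ w ∈ Algebra.adjoin ℤ ({y} : Set R), w ∈ C := by
    intro w hw
    induction hw using Algebra.adjoin_induction with
    | mem w hw => rw [Set.mem_singleton_iff] at hw; subst hw; exact hy
    | algebraMap a => exact isIntegral_algebraMap (R := R₀) (x := (algebraMap ℤ R₀ a))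
    | add w w' _ _ hw hw' => exact C.add_mem hw hw'
    | mul w w' _ _ hw hw' => exact C.mul_mem hw hw'
  obtain ⟨p, hp, hpx⟩ := hz
  have hzC : IsIntegral C z := by
    let φ : Algebra.adjoin ℤ ({y} : Set R) →+* C :=
      { toFun := fun w => ⟨w.1, hle w.1 w.2⟩
        map_one' := rfl
        map_mul' := fun _ _ => rfl
        map_zero' := rfl
        map_add' := fun _ _ => rfl }
    refine ⟨p.map φ, hp.map φ, ?_⟩
    rw [Polynomial.eval₂_map]
    exact hpx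
  exact isIntegral_trans (R := R₀) (A := C) z hzC

theorem JInt_Rel.refl (x : R) : JInt_Rel x x := by
  refine ⟨X - C X, monic_X_sub_C _, ?_⟩
  simp [JInt_ev]

end Abstract

theorem JInt_prime {p : ℕ} (hp : p.Prime) {d : ℕ} (hd : d ≠ 0) :
    JInt_Rel (S28.jd ℤ (d * p)) (S28.jd ℤ d) ∧ JInt_Rel (S28.jd ℤ d) (S28.jd ℤ (d * p)) := by
  obtain ⟨Φ, hΦ, -, h1, h2⟩ := S28.FN7.hasModPoly_int hp
  have e : ∀ y : LaurentSeries ℤ, S28.evY y = JInt_ev y := fun y => by
    unfold S28.evY JInt_ev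
    congr 1
  have r1 : JInt_Rel (S28.jd ℤ p) (jqModC ℤ) := ⟨Φ, hΦ, by rw [← e]; exact h1⟩
  have r2 : JInt_Rel (jqModC ℤ) (S28.jd ℤ p) := ⟨Φ, hΦ, by rw [← e]; exact h2⟩
  have s1 := r1.map (S28.Vq ℤ d)
  have s2 := r2.map (S28.Vq ℤ d)
  rw [Vq_jd ℤ hd hp.ne_zero] at s1 s2
  exact ⟨s1, s2⟩

theorem JInt_all (N : ℕ) : N ≠ 0 → ∀ d : ℕ, d ≠ 0 →
    JInt_Rel (S28.jd ℤ (d * N)) (S28.jd ℤ d) ∧ JInt_Rel (S28.jd ℤ d) (S28.jd ℤ (d * N)) := by
  refine Nat.recOnMul ?_ ?_ ?_ ?_ N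
  · intro h
    exact absurd rfl h
  · intro _ d _
    rw [mul_one]
    exact ⟨JInt_Rel.refl _, JInt_Rel.refl _⟩
  · intro p hp _ d hd
    exact JInt_prime hp hd
  · intro a b ha hb hab d hd
    have ha0 : a ≠ 0 := left_ne_zero_of_mul hab
    have hb0 : b ≠ 0 := right_ne_zero_of_mul hab
    obtain ⟨a1, a2⟩ := ha ha0 d hd
    obtain ⟨b1, b2⟩ := hb hb0 (d * a) (mul_ne_zero hd ha0)
    rw [mul_assoc] at b1 b2
    exact ⟨b1.trans a1, a2.trans b2⟩

theorem stmt_JInt : Stmt_JInt := by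
  intro N _ A s t hs ht
  obtain ⟨h1, h2⟩ := JInt_all N (NeZero.ne N) 1 one_ne_zero
  rw [one_mul] at h1 h2
  have k1 := h1.map (coeffMap (Int.castRingHom Qb))
  have k2 := h2.map (coeffMap (Int.castRingHom Qb))
  rw [S28.tower_coeffMap_jd, S28.tower_coeffMap_jd, ← hs, ← ht] at k1 k2
  have hinj : Function.Injective ((modularFunctionFieldBar N).val : FL N →+* LaurentSeries Qb) :=
    Subtype.val_injective
  have l1 : JInt_Rel s t := JInt_Rel.of_map _ hinj k1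
  have l2 : JInt_Rel t s := JInt_Rel.of_map _ hinj k2
  exact ⟨l2.isIntegral A, l1.isIntegral A⟩

end Fermat.Agent.S36.HM

end
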