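import Fermat.Agent.S36.HM.Interface

/-!
# S36 / HM / [MEM] : `t₄`, `t₉` lie in the modular function fields.
-/

set_option autoImplicit false

noncomputable section

namespace Fermat.Agent.S36.HM

open AlgebraicCurve ModularCurve IntermediateField Polynomial Fermat.Agent.KL.Haupt
open Fermat.Agent Fermat.Agent.INJ Fermat.Agent.INJ.Inst

theorem MEM_ne_zero (R : Type) [CommRing R] [Nontrivial R] {u : PowerSeries ℤ}
    (hu : PowerSeries.constantCoeff u = 1) (n : ℕ) : Qs R ^ n * lau R u ≠ 0 := by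
  intro h
  have h1 : lau R u = 0 := by
    have := congrArg (fun z => Ts R ^ n * z) h
    simp only [mul_zero] at this
    rw [← mul_assoc, mul_comm (Ts R ^ n), QT_pow, one_mul] at this
    exact this
  have h2 := coeff_lau_zero R u
  rw [h1, hu] at h2
  simp at h2

section Field

variable (k : Type) [Field k]

theorem MEM_Vq_xq2 {N : ℕ} [NeZero N] (h2 : (2 : k) ≠ 0) (hN : 4 ∣ N) :
    S28.Vq k 2 (xq2 k) ∈ modularFunctionFieldFullC k N := by
  have h := tS_mem_full k (M := 2) (N := 4) (Or.inl rfl) (by exact_mod_cast h2) (by norm_num)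
    (by norm_num)
  have e : tS 2 4 k = S28.Vq k 2 (xq2 k) := by simp [tS, xq]
  rw [e] at h
  exact full_degeneracyC_le k hN h

theorem MEM_Vq_xq3 {N : ℕ} [NeZero N] (h3 : (3 : k) ≠ 0) (hN : 9 ∣ N) :
    S28.Vq k 3 (xq3 k) ∈ modularFunctionFieldFullC k N := by
  have h := tS_mem_full k (M := 3) (N := 9) (Or.inr rfl) (by exact_mod_cast h3) (by norm_num)
    (by norm_num)
  have e : tS 3 9 k = S28.Vq k 3 (xq3 k) := by simp [tS, xq]
  rw [e] at h
  exact full_degeneracyC_le k hN h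

theorem tq4_mem_full {N : ℕ} [NeZero N] (h2 : (2 : k) ≠ 0) (hN : 4 ∣ N) :
    tq4 k ∈ modularFunctionFieldFullC k N := by
  have hX : xq2 k ∈ modularFunctionFieldFullC k N :=
    xq2_mem_full h2 (Dvd.dvd.trans (by norm_num) hN)
  have hY := MEM_Vq_xq2 k h2 hN
  have hne : xq2 k - 48 ≠ 0 := by
    have := sub_ne_zero_of_lead (coeff_xq2_neg_one k) 48
    exact_mod_cast this
  have hn : ∀ n : ℕ, (n : LaurentSeries k) ∈ modularFunctionFieldFullC k N :=
    fun n => IntermediateField.natCast_mem _ n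
  have e : sq4 k = (S28.Vq k 2 (xq2 k) + 576 - 8 * xq2 k) / (xq2 k - 48) := by
    rw [eq_div_iff hne]; exact sq4_mul k
  rw [tq4, e]
  refine sub_mem (div_mem (sub_mem (add_mem hY ?_) (mul_mem ?_ hX)) (sub_mem hX ?_)) ?_
  · exact_mod_cast hn 576
  · exact_mod_cast hn 8
  · exact_mod_cast hn 48
  · exact_mod_cast hn 8

theorem tq9_mem_full {N : ℕ} [NeZero N] (h3 : (3 : k) ≠ 0) (hN : 9 ∣ N) :
    tq9 k ∈ modularFunctionFieldFullC k N := by
  have hX : xq3 k ∈ modularFunctionFieldFullC k N :=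
    xq3_mem_full h3 (Dvd.dvd.trans (by norm_num) hN)
  have hY := MEM_Vq_xq3 k h3 hN
  have hne : den9 k ≠ 0 := by
    rw [den9_eq]; exact MEM_ne_zero k constantCoeff_d9 4
  have hn : ∀ n : ℕ, (n : LaurentSeries k) ∈ modularFunctionFieldFullC k N :=
    fun n => IntermediateField.natCast_mem _ n
  have e : sq9 k = num9 k / den9 k := by
    rw [eq_div_iff hne]; exact sq9_mul k
  rw [tq9, e, num9, den9]
  refine sub_mem (div_mem ?_ ?_) ?_
  · refine sub_mem (add_mem (add_mem (sub_mem (sub_mem (mul_mem (pow_mem hX 2) hY)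
      (mul_mem ?_ (pow_mem hX 2))) (mul_mem ?_ (mul_mem hX hY))) (mul_mem ?_ hX))
      (mul_mem ?_ hY)) ?_
    · exact_mod_cast hn 27
    · exact_mod_cast hn 33
    · exact_mod_cast hn 1620
    · exact_mod_cast hn 216
    · exact_mod_cast hn 23328
  · refine add_mem (sub_mem (sub_mem (mul_mem hX hY) (mul_mem ?_ hX)) (mul_mem ?_ hY)) ?_
    · exact_mod_cast hn 270
    · exact_mod_cast hn 18
    · exact_mod_cast hn 7776
  · exact_mod_cast hn 3

/-- `t_a ∈ k(j(q^d) : d ∣ N)` if `a ∣ N` and `a ≠ 0` in `k`. -/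
theorem tq_mem_full {a N : ℕ} [NeZero N] (ha : a = 4 ∨ a = 9) (hak : (a : k) ≠ 0) (hN : a ∣ N) :
    tq a k ∈ modularFunctionFieldFullC k N := by
  rcases ha with rfl | rfl
  · have h2 : (2 : k) ≠ 0 := by
      intro h
      apply hak
      have : ((4 : ℕ) : k) = 2 * 2 := by norm_num
      rw [this, h, zero_mul]
    simpa [tq] using tq4_mem_full k h2 hN
  · have h3 : (3 : k) ≠ 0 := by
      intro h
      apply hak
      have : ((9 : ℕ) : k) = 3 * 3 := by norm_num
      rw [this, h, zero_mul]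
    simpa [tq] using tq9_mem_full k h3 hN

end Field

/-- **[MEM]**. -/
theorem stmt_Mem : Stmt_Mem := by
  intro a N _ ha hN
  have h : tq a ℚ ∈ modularFunctionFieldFull N :=
    tq_mem_full ℚ ha (by rcases ha with rfl | rfl <;> norm_num) hN
  have h2 := coeffEmb_mem_laurentBaseChange Qb h
  rwa [coeffEmb, coeffMap_tq] at h2

/-- the Hauptmodul as an element of `FL N`. -/
def tF (a N : ℕ) [NeZero N] (ha : a = 4 ∨ a = 9) (hN : a ∣ N) : FL N :=
  ⟨tq a Qb, stmt_Mem a N ha hN⟩

end Fermat.Agent.S36.HM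

end
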