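import Fermat.Agent.S36.HM.Interface
import Fermat.Agent.INJ.Inst.ChartT

/-!
# S36 / HM, package [CU] : the cusps are the poles of `t` and the zeros of `cuspPoly(t)`.
-/

set_option autoImplicit false
set_option synthInstance.maxHeartbeats 400000

noncomputable section

namespace Fermat.Agent.S36.HM

open AlgebraicCurve ModularCurve IntermediateField Polynomial Fermat.Agent.KL.Haupt
open Fermat.Agent Fermat.Agent.INJ Fermat.Agent.INJ.Inst

section Abstract

variable {K F : Type} [Field K] [Field F] [Algebra K F] {V : F → ℤ}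

/-- (i) `G(t)` is integral where `t` is. -/
theorem CU_nonneg (hV : S24.IsVal K V) {t : F} (ht : 0 ≤ V t) (G : K[X]) (hG : aeval t G ≠ 0) :
    0 ≤ V (aeval t G) :=
  (hV.aeval_mem_subring (Or.inr ht : t ∈ hV.subring) G).resolve_left hG

/-- (ii) the dominant term at a pole of `t`. -/
theorem CU_pole (hV : S24.IsVal K V) {t : F} (ht0 : t ≠ 0) (ht : V t < 0) (G : K[X]) (hG : G ≠ 0) :
    aeval t G ≠ 0 ∧ V (aeval t G) = (G.natDegree : ℤ) * V t := by
  have hi0 : t⁻¹ ≠ 0 := inv_ne_zero ht0
  have hi : 0 < V t⁻¹ := by rw [hV.map_inv ht0]; linarith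
  have hc : G.reverse.coeff 0 ≠ 0 := by
    rw [coeff_zero_reverse]; exact leadingCoeff_ne_zero.2 hG
  obtain ⟨h1, h2⟩ := hV.aeval_of_coeff_zero_ne_zero hi0 hi G.reverse hc
  have e : aeval t⁻¹ G.reverse * t ^ G.natDegree = aeval t G := by
    let _ := invertibleOfNonzero ht0
    have := eval₂_reverse_mul_pow (algebraMap K F) t G
    rw [invOf_eq_inv] at this
    exact this
  rw [← e]
  refine ⟨mul_ne_zero h1 (pow_ne_zero _ ht0), ?_⟩
  rw [hV.map_mul _ _ h1 (pow_ne_zero _ ht0), h2, zero_add, hV.map_pow ht0]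

/-- (iii) coprime polynomials have no common zero. -/
theorem CU_coprime (hV : S24.IsVal K V) {t : F} (ht : 0 ≤ V t) {P Q : K[X]} (hcop : IsCoprime P Q)
    (hP : aeval t P ≠ 0) (hQ : aeval t Q ≠ 0) (hQpos : 0 < V (aeval t Q)) : V (aeval t P) = 0 := by
  obtain ⟨a, b, hab⟩ := hcop
  have hPnn := CU_nonneg hV ht P hP
  by_contra hne
  have hPpos : 0 < V (aeval t P) := lt_of_le_of_ne hPnn (Ne.symm hne)
  have e : aeval t a * aeval t P + aeval t b * aeval t Q = 1 := by
    rw [← map_mul, ← map_mul, ← map_add, hab, map_one]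
  -- both summands have positive valuation (or vanish)
  have key : ∀ (c G : K[X]), aeval t G ≠ 0 → 0 < V (aeval t G) →
      aeval t c * aeval t G = 0 ∨ 0 < V (aeval t c * aeval t G) := by
    intro c G hG hGpos
    by_cases hc : aeval t c = 0
    · left; rw [hc, zero_mul]
    · right
      rw [hV.map_mul _ _ hc hG]
      have := CU_nonneg hV ht c hc
      linarith
  have h1 := hV.map_one
  rcases key a P hP hPpos with h | h
  · rw [h, zero_add] at e
    rcases key b Q hQ hQpos with h' | h'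
    · rw [h'] at e; exact zero_ne_one e
    · rw [e, h1] at h'; exact lt_irrefl _ h'
  · rcases key b Q hQ hQpos with h' | h'
    · rw [h', add_zero] at e
      rw [e, h1] at h; exact lt_irrefl _ h
    · have hx : aeval t a * aeval t P ≠ 0 := by
        intro h0
        rw [h0, zero_add] at e
        rw [e, h1] at h'; exact lt_irrefl _ h'
      have hy : aeval t b * aeval t Q ≠ 0 := by
        intro h0
        rw [h0, add_zero] at e
        rw [e, h1] at h; exact lt_irrefl _ h
      have := hV.map_add _ _ hx hy (by rw [e]; exact one_ne_zero)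
      rw [e, h1] at this
      have h2 := lt_min h h'
      exact absurd this (not_le.2 h2)

/-- the abstract lemma: the poles of `s = P(t)/Q(t)`, `deg Q < deg P`. -/
theorem CU_gen (hV : S24.IsVal K V) {s t : F} {P Q : K[X]} (ht : Transcendental K t)
    (hcop : IsCoprime P Q) (hQ : Q ≠ 0) (hdeg : Q.natDegree < P.natDegree)
    (hst : s * aeval t Q = aeval t P) :
    V s < 0 ↔ (V t < 0 ∨ 0 < V (aeval t Q)) := by
  have hne : ∀ G : K[X], G ≠ 0 → aeval t G ≠ 0 := fun G hG h => hG ((transcendental_iff.1 ht) G h)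
  have ht0 : t ≠ 0 := by simpa using hne X X_ne_zero
  have hP : P ≠ 0 := by
    rintro rfl
    simp at hdeg
  have hPt := hne P hP
  have hQt := hne Q hQ
  have hs0 : s ≠ 0 := by
    rintro rfl
    rw [zero_mul] at hst
    exact hPt hst.symm
  have hord : V s + V (aeval t Q) = V (aeval t P) := by
    rw [← hV.map_mul _ _ hs0 hQt, hst]
  by_cases hneg : V t < 0
  · have h1 := (CU_pole hV ht0 hneg P hP).2
    have h2 := (CU_pole hV ht0 hneg Q hQ).2
    have hd : (Q.natDegree : ℤ) + 1 ≤ P.natDegree := by exact_mod_cast hdeg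
    refine ⟨fun _ => Or.inl hneg, fun _ => ?_⟩
    rw [h1, h2] at hord
    nlinarith
  · have hnn : 0 ≤ V t := not_lt.1 hneg
    have hPnn := CU_nonneg hV hnn P hPt
    have hQnn := CU_nonneg hV hnn Q hQt
    constructor
    · intro h
      right
      linarith
    · rintro (h | h)
      · exact absurd h hneg
      · have := CU_coprime hV hnn hcop hPt hQt h
        linarith

/-- variant: `Q` may be replaced by a polynomial with the same radical. -/
theorem CU_gen' (hV : S24.IsVal K V) {s t : F} {P Q Q' : K[X]} (ht : Transcendental K t)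
    (hcop : IsCoprime P Q) (hQ : Q ≠ 0) (hdeg : Q.natDegree < P.natDegree)
    (hst : s * aeval t Q = aeval t P) (h1 : Q' ∣ Q) (n : ℕ) (h2 : Q ∣ Q' ^ n) :
    V s < 0 ↔ (V t < 0 ∨ 0 < V (aeval t Q')) := by
  rw [CU_gen hV ht hcop hQ hdeg hst]
  have hne : ∀ G : K[X], G ≠ 0 → aeval t G ≠ 0 := fun G hG h => hG ((transcendental_iff.1 ht) G h)
  by_cases hneg : V t < 0
  · simp [hneg]
  · have hnn : 0 ≤ V t := not_lt.1 hneg
    have hQ' : Q' ≠ 0 := by
      rintro rfl
      exact hQ (zero_dvd_iff.1 h1)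
    obtain ⟨R, hR⟩ := h1
    obtain ⟨R', hR'⟩ := h2
    have hR0 : R ≠ 0 := by
      rintro rfl
      exact hQ (by rw [hR, mul_zero])
    have hR'0 : R' ≠ 0 := by
      rintro rfl
      rw [mul_zero] at hR'
      exact hQ' (pow_eq_zero_iff (n := n) (by
        rintro rfl
        simp at hR') |>.1 hR')
    have e1 : V (aeval t Q) = V (aeval t Q') + V (aeval t R) := by
      rw [hR, map_mul, hV.map_mul _ _ (hne _ hQ') (hne _ hR0)]
    have e2 : (n : ℤ) * V (aeval t Q') = V (aeval t Q) + V (aeval t R') := by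
      rw [← hV.map_pow (hne _ hQ'), ← map_pow, hR', map_mul, hV.map_mul _ _ (hne _ hQ) (hne _ hR'0)]
    have n1 := CU_nonneg hV hnn R (hne _ hR0)
    have n2 := CU_nonneg hV hnn R' (hne _ hR'0)
    have n3 := CU_nonneg hV hnn Q' (hne _ hQ')
    refine or_congr Iff.rfl ⟨fun h => ?_, fun h => by linarith⟩
    by_contra hc
    have h0 : V (aeval t Q') = 0 := le_antisymm (not_lt.1 hc) n3
    rw [h0, mul_zero] at e2
    linarith

/-- Bezout up to a nonzero constant. -/
theorem CU_isCoprime {P Q : K[X]} (a b : K[X]) (c : K) (hc : c ≠ 0) (h : a * P + b * Q = C c) :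
    IsCoprime P Q :=
  ⟨C c⁻¹ * a, C c⁻¹ * b, by
    rw [mul_assoc, mul_assoc, ← mul_add, h, ← C_mul, inv_mul_cancel₀ hc, C_1]⟩

end Abstract

section Coprime

variable (K : Type) [Field K] [CharZero K]

theorem CU_coprime4 :
    IsCoprime ((X ^ 2 + 256 * X + 4096) ^ 3 : K[X]) (X ^ 4 * (X + 16)) := by
  apply IsCoprime.pow_left
  apply IsCoprime.mul_right
  · apply IsCoprime.pow_right
    refine CU_isCoprime 1 (-(X + 256)) 4096 (by norm_num) ?_
    rw [map_ofNat]; ring
  · refine CU_isCoprime 1 (-(X + 240)) 256 (by norm_num) ?_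
    rw [map_ofNat]; ring

theorem CU_coprime9 :
    IsCoprime (((X + 9) * (X ^ 3 + 243 * X ^ 2 + 2187 * X + 6561)) ^ 3 : K[X])
      (X ^ 9 * (X ^ 2 + 9 * X + 27)) := by
  apply IsCoprime.pow_left
  apply IsCoprime.mul_left
  · apply IsCoprime.mul_right
    · apply IsCoprime.pow_right
      refine CU_isCoprime 1 (-1) 9 (by norm_num) ?_
      rw [map_ofNat]; ring
    · refine CU_isCoprime (-X) 1 27 (by norm_num) ?_
      rw [map_ofNat]; ring
  · apply IsCoprime.mul_right
    · apply IsCoprime.pow_right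
      refine CU_isCoprime 1 (-(X ^ 2 + 243 * X + 2187)) 6561 (by norm_num) ?_
      rw [map_ofNat]; ring
    · refine CU_isCoprime (-(2 * X + 9)) (108 + (2 * X + 9) * (X + 234)) 729 (by norm_num) ?_
      rw [map_ofNat]; ring

theorem CU_deg4Q : (X ^ 4 * (X + 16) : K[X]).natDegree = 5 := by
  compute_degree!

theorem CU_deg4P : ((X ^ 2 + 256 * X + 4096) ^ 3 : K[X]).natDegree = 6 := by
  compute_degree!

theorem CU_deg9Q : (X ^ 9 * (X ^ 2 + 9 * X + 27) : K[X]).natDegree = 11 := by
  compute_degree!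

theorem CU_deg9P :
    (((X + 9) * (X ^ 3 + 243 * X ^ 2 + 2187 * X + 6561)) ^ 3 : K[X]).natDegree = 12 := by
  compute_degree!

end Coprime

/-- a relation in `FL N` may be checked on series. -/
theorem CU_rel (N : ℕ) (s t : FL N) (P Q : Qb[X])
    (h : (s : LaurentSeries Qb) * aeval (t : LaurentSeries Qb) Q
      = aeval (t : LaurentSeries Qb) P) : s * aeval t Q = aeval t P := by
  apply Subtype.ext
  have e : ∀ G : Qb[X], ((aeval t G : FL N) : LaurentSeries Qb) = aeval (t : LaurentSeries Qb) G :=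
    fun G => (aeval_algHom_apply (modularFunctionFieldBar N).val t G).symm
  show (s : LaurentSeries Qb) * ((aeval t Q : FL N) : LaurentSeries Qb) = _
  rw [e, e, h]

theorem stmt_Cusp : Stmt_Cusp := by
  intro a N _ ha haN t ht v
  have hV := S24.isVal_ord v
  have htr : Transcendental Qb t :=
    transcendental_of_coe (by rw [ht]; exact transcendental_tq Qb a)
  rcases ha with rfl | rfl
  · have hQ0 : (X ^ 4 * (X + 16) : Qb[X]) ≠ 0 := by
      intro h
      have := CU_deg4Q Qb
      rw [h] at this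
      simp at this
    simp only [cuspPoly, if_true]
    refine CU_gen' hV htr (CU_coprime4 Qb) hQ0 (by rw [CU_deg4Q, CU_deg4P]; norm_num) ?_
      ⟨X ^ 3, by ring⟩ 4 ⟨(X + 16) ^ 3, by ring⟩
    apply CU_rel
    have := r4_j1 Qb
    rw [ht, coe_jF]
    simp only [map_add, map_pow, map_mul, aeval_X, map_ofNat]
    simpa only [tq, if_true] using this
  · have hQ0 : (X ^ 9 * (X ^ 2 + 9 * X + 27) : Qb[X]) ≠ 0 := by
      intro h
      have := CU_deg9Q Qb
      rw [h] at this
      simp at this
    simp only [cuspPoly, show (9 : ℕ) ≠ 4 by norm_num, if_false]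
    refine CU_gen' hV htr (CU_coprime9 Qb) hQ0 (by rw [CU_deg9Q, CU_deg9P]; norm_num) ?_
      ⟨X ^ 8, by ring⟩ 9 ⟨(X ^ 2 + 9 * X + 27) ^ 8, by ring⟩
    apply CU_rel
    have := r9_j1 Qb
    rw [ht, coe_jF]
    simp only [map_add, map_pow, map_mul, aeval_X, map_ofNat]
    simpa only [tq, show (9 : ℕ) ≠ 4 by norm_num, if_false] using this

end Fermat.Agent.S36.HM

end
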