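import Fermat.Agent.S36.HM.Interface2

/-!
# S36 / HM, package HM-DICH : coprimality of the numerator and denominator of `j` over `ℤ[1/a]`, and
the dichotomy data on both charts.
-/

set_option autoImplicit false

noncomputable section

namespace Fermat.Agent.S36.HM

open Polynomial Fermat.Agent.KL

section Cop

variable {R : Type} [CommRing R]

theorem DI_bezout {P Q a b : R[X]} (c : R) (hc : IsUnit c) (h : a * P + b * Q = C c) :
    IsCoprime P Q := by
  obtain ⟨u, rfl⟩ := hc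
  refine ⟨C ((u⁻¹ : Rˣ) : R) * a, C ((u⁻¹ : Rˣ) : R) * b, ?_⟩
  have : C ((u⁻¹ : Rˣ) : R) * a * P + C ((u⁻¹ : Rˣ) : R) * b * Q
      = C ((u⁻¹ : Rˣ) : R) * (a * P + b * Q) := by ring
  rw [this, h, ← C_mul, Units.inv_mul, C_1]

theorem DI_unit2 (h : IsUnit ((4 : ℕ) : R)) : IsUnit (2 : R) := by
  have e : ((4 : ℕ) : R) = 2 * 2 := by norm_num
  rw [e] at h
  exact isUnit_of_mul_isUnit_left h

theorem DI_unit3 (h : IsUnit ((9 : ℕ) : R)) : IsUnit (3 : R) := by
  have e : ((9 : ℕ) : R) = 3 * 3 := by norm_num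
  rw [e] at h
  exact isUnit_of_mul_isUnit_left h

theorem DI_coprime4 (h : IsUnit ((4 : ℕ) : R)) : IsCoprime (jNumP 4 R) (jDenP 4 R) := by
  have h2 := DI_unit2 h
  have u1 : IsUnit (4096 : R) := by
    have := h2.pow 12
    norm_num at this
    exact this
  have u2 : IsUnit (256 : R) := by
    have := h2.pow 8
    norm_num at this
    exact this
  simp only [jNumP, jDenP, if_true]
  apply IsCoprime.pow_left
  apply IsCoprime.mul_right
  · apply IsCoprime.pow_right
    refine DI_bezout (a := 1) (b := -(X + 256)) 4096 u1 ?_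
    rw [map_ofNat]; ring
  · refine DI_bezout (a := 1) (b := -(X + 240)) 256 u2 ?_
    rw [map_ofNat]; ring

theorem DI_coprime9 (h : IsUnit ((9 : ℕ) : R)) : IsCoprime (jNumP 9 R) (jDenP 9 R) := by
  have h3 := DI_unit3 h
  have u1 : IsUnit (9 : R) := by
    have := h3.pow 2
    norm_num at this
    exact this
  have u2 : IsUnit (27 : R) := by
    have := h3.pow 3
    norm_num at this
    exact this
  have u3 : IsUnit (6561 : R) := by
    have := h3.pow 8
    norm_num at this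
    exact this
  have u4 : IsUnit (729 : R) := by
    have := h3.pow 6
    norm_num at this
    exact this
  simp only [jNumP, jDenP, show (9 : ℕ) ≠ 4 by norm_num, if_false]
  apply IsCoprime.pow_left
  apply IsCoprime.mul_left
  · apply IsCoprime.mul_right
    · apply IsCoprime.pow_right
      refine DI_bezout (a := 1) (b := -1) 9 u1 ?_
      rw [map_ofNat]; ring
    · refine DI_bezout (a := -X) (b := 1) 27 u2 ?_
      rw [map_ofNat]; ring
  · apply IsCoprime.mul_right
    · apply IsCoprime.pow_right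
      refine DI_bezout (a := 1) (b := -(X ^ 2 + 243 * X + 2187)) 6561 u3 ?_
      rw [map_ofNat]; ring
    · refine DI_bezout (a := -(2 * X + 9)) (b := 108 + (2 * X + 9) * (X + 234)) 729 u4 ?_
      rw [map_ofNat]; ring

theorem DI_coprimeI4 : IsCoprime (jNumI 4 R) (jDenI 4 R) := by
  simp only [jNumI, jDenI, if_true]
  apply IsCoprime.pow_left
  apply IsCoprime.mul_right
  · exact ⟨1, -(256 + 4096 * X), by ring⟩
  · exact ⟨1, -(256 * X), by ring⟩

theorem DI_coprimeI9 (h : IsUnit ((9 : ℕ) : R)) : IsCoprime (jNumI 9 R) (jDenI 9 R) := by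
  have h3 := DI_unit3 h
  have u4 : IsUnit (729 : R) := by
    have := h3.pow 6
    norm_num at this
    exact this
  simp only [jNumI, jDenI, show (9 : ℕ) ≠ 4 by norm_num, if_false]
  apply IsCoprime.pow_left
  apply IsCoprime.mul_left
  · apply IsCoprime.mul_right
    · exact ⟨1, -9, by ring⟩
    · exact ⟨-(2 + 9 * X), 3, by ring⟩
  · have hGX : IsCoprime (1 + 243 * X + 2187 * X ^ 2 + 6561 * X ^ 3 : R[X]) X :=
      ⟨1, -(243 + 2187 * X + 6561 * X ^ 2), by ring⟩
    apply IsCoprime.mul_right hGX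
    have h1 : IsCoprime (1 + 243 * X + 2187 * X ^ 2 + 6561 * X ^ 3 : R[X]) (C 729 * X ^ 4) :=
      (isCoprime_mul_unit_left_right (u4.map C) _ _).2 hGX.pow_right
    have h2 := h1.add_mul_left_right (2 + 9 * X)
    have e : (C 729 * X ^ 4 + (1 + 243 * X + 2187 * X ^ 2 + 6561 * X ^ 3) * (2 + 9 * X) : R[X])
        = (108 * X ^ 2 + (2 + 9 * X) * (1 + 234 * X)) * (1 + 9 * X + 27 * X ^ 2) := by
      rw [map_ofNat]; ring
    rw [e] at h2
    exact h2.of_mul_right_right

end Cop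

theorem stmt_Cop : Stmt_Cop := by
  intro a R _ ha hu
  rcases ha with rfl | rfl
  · exact ⟨DI_coprime4 hu, DI_coprimeI4⟩
  · exact ⟨DI_coprime9 hu, DI_coprimeI9 hu⟩

/-- the dichotomy data on one chart. -/
theorem DI_chart {A₀ F : Type} [CommRing A₀] [Field F] [Algebra A₀ F] (j x : F) (P Q : A₀[X])
    (hcop : IsCoprime P Q) (hrel : j * aeval x Q = aeval x P) :
    ∃ d e u v : PolyR A₀ x, (d : F) * j = (e : F) ∧ u * d + v * e = 1 := by
  have hcoe : ∀ p : A₀[X], ((aeval (polyX A₀ x) p : PolyR A₀ x) : F) = aeval x p := by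
    intro p
    exact (Polynomial.aeval_algHom_apply (PolyR A₀ x).val (polyX A₀ x) p).symm
  obtain ⟨a, b, hab⟩ := hcop
  refine ⟨aeval (polyX A₀ x) Q, aeval (polyX A₀ x) P, aeval (polyX A₀ x) b,
    aeval (polyX A₀ x) a, ?_, ?_⟩
  · rw [hcoe, hcoe, mul_comm, hrel]
  · rw [← map_mul, ← map_mul, ← map_add, add_comm, hab, map_one]

theorem stmt_DichData : Stmt_DichData := by
  intro a A₀ F _ _ _ j t ha hu ht hrel
  obtain ⟨hc1, hc2⟩ := stmt_Cop a A₀ ha hu
  refine ⟨DI_chart j t _ _ hc1 hrel, DI_chart j t⁻¹ _ _ hc2 ?_⟩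
  rcases ha with rfl | rfl
  · simp only [jNumP, jDenP, jNumI, jDenI, if_true, map_pow, map_add, map_mul, aeval_X, map_ofNat,
      map_one] at hrel ⊢
    have e1 : (t ^ 2 + 256 * t + 4096) ^ 3 = t ^ 6 * (1 + 256 * t⁻¹ + 4096 * t⁻¹ ^ 2) ^ 3 := by
      field_simp
    have e2 : t ^ 4 * (t + 16) = t ^ 6 * (t⁻¹ * (1 + 16 * t⁻¹)) := by
      field_simp
    rw [e1, e2] at hrel
    apply mul_left_cancel₀ (pow_ne_zero 6 ht)
    linear_combination hrel
  · simp only [jNumP, jDenP, jNumI, jDenI, show (9 : ℕ) ≠ 4 by norm_num, if_false, map_pow, map_add,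
      map_mul, aeval_X, map_ofNat, map_one] at hrel ⊢
    have e1 : ((t + 9) * (t ^ 3 + 243 * t ^ 2 + 2187 * t + 6561)) ^ 3
        = t ^ 12 * ((1 + 9 * t⁻¹) * (1 + 243 * t⁻¹ + 2187 * t⁻¹ ^ 2 + 6561 * t⁻¹ ^ 3)) ^ 3 := by
      field_simp
    have e2 : t ^ 9 * (t ^ 2 + 9 * t + 27) = t ^ 12 * (t⁻¹ * (1 + 9 * t⁻¹ + 27 * t⁻¹ ^ 2)) := by
      field_simp
    rw [e1, e2] at hrel
    apply mul_left_cancel₀ (pow_ne_zero 12 ht)
    linear_combination hrel

end Fermat.Agent.S36.HM

end
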