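import Fermat.Agent.S36.HM.Interface

/-!
# S36 / HM : [ETA] `t₄`, `t₉` are the eta quotients (formal power series).
-/

set_option autoImplicit false
set_option synthInstance.maxHeartbeats 400000

open PowerSeries ModularCurve

namespace Fermat.Agent.S36.HM

open Fermat.Agent.KL.Haupt Fermat.Agent

noncomputable section

/-- uniqueness of normalised `n`-th roots in `ℤ⟦X⟧`. -/
theorem Eta_root_unique {U V : PowerSeries ℤ} (hU : constantCoeff U = 1)
    (hV : constantCoeff V = 1) {n : ℕ} (hn : n ≠ 0) (h : U ^ n = V ^ n) : U = V := by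
  have h1 := geom_sum₂_mul U V n
  rw [h, sub_self] at h1
  rcases mul_eq_zero.1 h1 with h2 | h2
  · exfalso
    have h3 := congrArg (constantCoeff (R := ℤ)) h2
    rw [map_sum] at h3
    simp only [map_mul, map_pow, hU, hV, one_pow, mul_one, Finset.sum_const, Finset.card_range,
      map_zero, nsmul_eq_mul] at h3
    exact hn (by exact_mod_cast h3)
  · exact sub_eq_zero.1 h2

/-- `(x₂ - 64) Δ(q²) = Δ(q)`. -/
theorem Eta_H2 : (xq2 ℤ - 64) * lau ℤ Ds2 = lau ℤ Ds := by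
  have hx := xq2_mul ℤ
  have h1 := congrArg (lau ℤ) Ds_eq_two
  have h2 := congrArg (lau ℤ) Ds2_eq_two
  simp only [map_mul, map_pow, map_sub, map_ofNat] at h1 h2
  rw [h1, h2]
  linear_combination (lau ℤ (bS 2) * (lau ℤ a2 - 64 * lau ℤ (bS 2))) * hx

/-- `(x₃ - 27)² Δ(q³) = Δ(q)`. -/
theorem Eta_H3 : (xq3 ℤ - 27) ^ 2 * lau ℤ Ds3 = lau ℤ Ds := by
  have hx := xq3_mul ℤ
  have h1 := congrArg (lau ℤ) Ds_eq_three
  have h2 := congrArg (lau ℤ) Ds3_eq_three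
  simp only [map_mul, map_pow, map_sub, map_ofNat] at h1 h2
  have ha : lau ℤ a3 ≠ 0 := lau_ne_zero_int (by
    intro h
    have := constantCoeff_a3
    rw [h] at this
    simp at this)
  apply mul_left_cancel₀ ha
  linear_combination (xq3 ℤ - 27) ^ 2 * h2 - h1 + (lau ℤ (bS 3) * (lau ℤ a3 - 27 * lau ℤ (bS 3))
    * ((xq3 ℤ - 27) * lau ℤ (bS 3) + lau ℤ a3 - 27 * lau ℤ (bS 3))) * hx

theorem Eta_lau_X_ne : lau ℤ X ≠ 0 := lau_ne_zero_int X_ne_zero

/-! ### level 4 -/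

/-- `t₄³ Δ(q⁴) = Δ(q)`. -/
theorem Eta_t4_cube : tq4 ℤ ^ 3 * lau ℤ (expand 4 four_ne_zero Ds) = lau ℤ Ds := by
  have h1 := r4_h ℤ
  have h2 := r4_h2 ℤ
  have h3 := congrArg (S28.Vq ℤ 2) Eta_H2
  rw [map_mul, map_sub, map_ofNat, Vq_lau, Vq_lau] at h3
  have e : expand 2 (NeZero.ne 2) Ds2 = expand 4 four_ne_zero Ds :=
    (expand_mul 2 two_ne_zero 2 two_ne_zero Ds).symm
  rw [e] at h3
  linear_combination (-(xq2 ℤ - 64) * h2 - tq4 ℤ * h1) * lau ℤ (expand 4 four_ne_zero Ds)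
    + (xq2 ℤ - 64) * h3 + Eta_H2

theorem Eta_U4 : tq4 ℤ * lau ℤ X = lau ℤ (n4 * d4inv - 8 * X) := by
  rw [tq4, sq4, map_sub, map_mul (lau ℤ) 8 X, map_ofNat]
  linear_combination (lau ℤ (n4 * d4inv)) * QT ℤ

theorem Eta_four_int :
    tq4 ℤ * lau ℤ (X * expand 4 four_ne_zero etaProd ^ 8) = lau ℤ (etaProd ^ 8) := by
  have hU : tq4 ℤ * lau ℤ (X * expand 4 four_ne_zero etaProd ^ 8)
      = lau ℤ ((n4 * d4inv - 8 * X) * expand 4 four_ne_zero etaProd ^ 8) := by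
    rw [map_mul, ← mul_assoc, Eta_U4, ← map_mul]
  rw [hU]
  congr 1
  refine Eta_root_unique (n := 3) ?_ ?_ three_ne_zero ?_
  · simp [constantCoeff_n4, constantCoeff_d4inv, constantCoeff_etaProd]
  · simp [constantCoeff_etaProd]
  · apply lau_injective_int
    rw [map_pow, ← hU]
    have h := Eta_t4_cube
    rw [Ds, map_mul (expand 4 four_ne_zero), expand_X, dedekindEtaUnit, map_pow] at h
    simp only [map_mul, map_pow] at h ⊢
    apply mul_left_cancel₀ Eta_lau_X_ne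
    linear_combination h

/-! ### level 9 -/

/-- `t₉⁸ Δ(q⁹) = Δ(q)`. -/
theorem Eta_t9_pow : tq9 ℤ ^ 8 * lau ℤ (expand 9 (by norm_num) Ds) = lau ℤ Ds := by
  have h1 := r9_h ℤ
  have h2 := r9_h3 ℤ
  have h3 := congrArg (S28.Vq ℤ 3) Eta_H3
  rw [map_mul, map_pow, map_sub, map_ofNat, Vq_lau, Vq_lau] at h3
  have e : expand 3 (NeZero.ne 3) Ds3 = expand 9 (by norm_num) Ds :=
    (expand_mul 3 three_ne_zero 3 three_ne_zero Ds).symm
  rw [e] at h3
  linear_combination (-(tq9 ℤ ^ 4 + (xq3 ℤ - 27) * (S28.Vq ℤ 3 (xq3 ℤ) - 27))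
      * lau ℤ (expand 9 (by norm_num) Ds)) * ((xq3 ℤ - 27) * h2 + tq9 ℤ * h1)
    + (xq3 ℤ - 27) ^ 2 * h3 + Eta_H3

theorem Eta_U9 : tq9 ℤ * lau ℤ X = lau ℤ (n9 * d9inv - 3 * X) := by
  rw [tq9, sq9, map_sub, map_mul (lau ℤ) 3 X, map_ofNat]
  linear_combination (lau ℤ (n9 * d9inv)) * QT ℤ

theorem Eta_nine_int :
    tq9 ℤ * lau ℤ (X * expand 9 (by norm_num) etaProd ^ 3) = lau ℤ (etaProd ^ 3) := by
  have hU : tq9 ℤ * lau ℤ (X * expand 9 (by norm_num) etaProd ^ 3)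
      = lau ℤ ((n9 * d9inv - 3 * X) * expand 9 (by norm_num) etaProd ^ 3) := by
    rw [map_mul, ← mul_assoc, Eta_U9, ← map_mul]
  rw [hU]
  congr 1
  refine Eta_root_unique (n := 8) ?_ ?_ (by norm_num) ?_
  · simp [constantCoeff_n9, constantCoeff_d9inv, constantCoeff_etaProd]
  · simp [constantCoeff_etaProd]
  · apply lau_injective_int
    rw [map_pow, ← hU]
    have h := Eta_t9_pow
    rw [Ds, map_mul (expand 9 (by norm_num)), expand_X, dedekindEtaUnit, map_pow] at h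
    simp only [map_mul, map_pow] at h ⊢
    apply mul_left_cancel₀ Eta_lau_X_ne
    linear_combination h

theorem stmt_Eta : Stmt_Eta := by
  refine ⟨fun R _ => ?_, fun R _ => ?_⟩
  · have h := congrArg (coeffMap (Int.castRingHom R)) Eta_four_int
    rwa [map_mul, coeffMap_tq4, coeffMap_lau, coeffMap_lau] at h
  · have h := congrArg (coeffMap (Int.castRingHom R)) Eta_nine_int
    rwa [map_mul, coeffMap_tq9, coeffMap_lau, coeffMap_lau] at h

end

end Fermat.Agent.S36.HM
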