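import Fermat.Agent.S36.HM.Interface
import Fermat.Agent.KL.Defs

/-!
# S36 / HM : the dichotomy data (request of helper45): `j d(t) = e(t)`, `u d + v e = 1` on both charts.
-/

set_option autoImplicit false

noncomputable section

namespace Fermat.Agent.S36.HM

open Polynomial Fermat.Agent.KL

/-- numerator of `j` as a function of `T = 1/t`. -/
def jNumI (a : ℕ) (K : Type) [CommRing K] : K[X] :=
  if a = 4 then (1 + 256 * X + 4096 * X ^ 2) ^ 3
  else ((1 + 9 * X) * (1 + 243 * X + 2187 * X ^ 2 + 6561 * X ^ 3)) ^ 3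

/-- denominator of `j` as a function of `T = 1/t`. -/
def jDenI (a : ℕ) (K : Type) [CommRing K] : K[X] :=
  if a = 4 then X * (1 + 16 * X) else X * (1 + 9 * X + 27 * X ^ 2)

/-- [COP] coprimality over every ring in which `a` is invertible. -/
def Stmt_Cop : Prop :=
  ∀ (a : ℕ) (R : Type) [CommRing R], (a = 4 ∨ a = 9) → IsUnit (a : R) →
    IsCoprime (jNumP a R) (jDenP a R) ∧ IsCoprime (jNumI a R) (jDenI a R)

/-- [DICH] the dichotomy data on both charts. -/
def Stmt_DichData : Prop :=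
  ∀ (a : ℕ) (A₀ F : Type) [CommRing A₀] [Field F] [Algebra A₀ F] (j t : F), (a = 4 ∨ a = 9) →
    IsUnit (a : A₀) → t ≠ 0 → j * aeval t (jDenP a A₀) = aeval t (jNumP a A₀) →
    (∃ d e u v : PolyR A₀ t, (d : F) * j = (e : F) ∧ u * d + v * e = 1) ∧
    (∃ d e u v : PolyR A₀ t⁻¹, (d : F) * j = (e : F) ∧ u * d + v * e = 1)

end Fermat.Agent.S36.HM

end
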