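import Fermat.Agent.S36.HM.Series
import Fermat.Agent.INJ.Inst.Basic

/-!
# S36 / HM : relations between the Hauptmoduln `t₄`, `t₉` and `x_M(q^d)`, `j(q^d)`; leading terms;
membership in the modular function fields.
-/

set_option autoImplicit false

open ModularCurve

namespace Fermat.Agent.S36.HM

open Fermat.Agent.KL.Haupt Fermat.Agent

noncomputable section

section Rel

variable (R : Type) [CommRing R]

theorem jd_one' : S28.jd R 1 = jqModC R := by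
  rw [S28.jd, S28.Vq_eq, qExpand_one_apply]

theorem Vq_jd {p d : ℕ} (hp : p ≠ 0) (hd : d ≠ 0) : S28.Vq R p (S28.jd R d) = S28.jd R (p * d) := by
  rw [S28.jd, S28.tower_Vq_Vq R hp hd, S28.jd]

/-- `x₂(q²) = s₄²`. -/
theorem sq4_sq : sq4 R ^ 2 = S28.Vq R 2 (xq2 R) := by
  have h := congrArg (coeffMap (Int.castRingHom R)) sq4_sq_int
  simpa only [map_pow, coeffMap_sq4, S28.tower_coeffMap_Vq, coeffMap_xq2] using h

/-- `x₃(q³) = s₉³`. -/
theorem sq9_cube : sq9 R ^ 3 = S28.Vq R 3 (xq3 R) := by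
  have h := congrArg (coeffMap (Int.castRingHom R)) sq9_cube_int
  simpa only [map_pow, coeffMap_sq9, S28.tower_coeffMap_Vq, coeffMap_xq3] using h

theorem sq9_rel : xq3 R * (sq9 R ^ 2 + 3 * sq9 R + 9) = (sq9 R + 6) ^ 3 := by
  have h := congrArg (coeffMap (Int.castRingHom R)) sq9_rel_int
  simpa only [map_pow, map_mul, map_add, map_ofNat, coeffMap_sq9, coeffMap_xq3] using h

/-! #### level 4 -/

/-- `x₂(q²) = (t + 8)²`. -/
theorem r4_Y : S28.Vq R 2 (xq2 R) = (tq4 R + 8) ^ 2 := by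
  rw [← sq4_sq, tq4]; ring

/-- `x₂(q) (t + 16) = (t + 32)²`. -/
theorem r4_X : xq2 R * (tq4 R + 16) = (tq4 R + 32) ^ 2 := by
  have h1 := sq4_mul R
  have h2 := sq4_sq R
  rw [tq4]
  linear_combination h1 - h2

/-- `(x₂(q) - 64) (t + 16) = t²`. -/
theorem r4_h : (xq2 R - 64) * (tq4 R + 16) = tq4 R ^ 2 := by
  linear_combination r4_X R

/-- `x₂(q²) - 64 = t (t + 16)`. -/
theorem r4_h2 : S28.Vq R 2 (xq2 R) - 64 = tq4 R * (tq4 R + 16) := by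
  linear_combination r4_Y R

/-- `j(q) t⁴ (t + 16) = (t² + 256 t + 4096)³`. -/
theorem r4_j1 : S28.jd R 1 * (tq4 R ^ 4 * (tq4 R + 16))
    = (tq4 R ^ 2 + 256 * tq4 R + 4096) ^ 3 := by
  have h1 := rel2_j R
  have h2 := r4_X R
  rw [jd_one']
  have e1 : tq4 R ^ 2 = (xq2 R - 64) * (tq4 R + 16) := by linear_combination -h2
  have e2 : tq4 R ^ 2 + 256 * tq4 R + 4096 = (xq2 R + 192) * (tq4 R + 16) := by
    linear_combination -h2
  rw [e2, show tq4 R ^ 4 = (tq4 R ^ 2) ^ 2 by ring, e1]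
  linear_combination (tq4 R + 16) ^ 3 * h1

/-- `j(q²) t² (t + 16)² = (t² + 16 t + 256)³`. -/
theorem r4_j2 : S28.jd R 2 * (tq4 R ^ 2 * (tq4 R + 16) ^ 2)
    = (tq4 R ^ 2 + 16 * tq4 R + 256) ^ 3 := by
  have h1 := rel2_j2 R
  have h2 := r4_X R
  rw [← S28.Vq_eq, ← S28.jd] at h1
  have e1 : tq4 R ^ 2 = (xq2 R - 64) * (tq4 R + 16) := by linear_combination -h2
  have e2 : tq4 R ^ 2 + 16 * tq4 R + 256 = (xq2 R - 48) * (tq4 R + 16) := by
    linear_combination -h2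
  rw [e2, e1]
  linear_combination (tq4 R + 16) ^ 3 * h1

/-- `j(q⁴) t (t + 16) = (t² + 16 t + 16)³`. -/
theorem r4_j4 : S28.jd R 4 * (tq4 R * (tq4 R + 16)) = (tq4 R ^ 2 + 16 * tq4 R + 16) ^ 3 := by
  have h1 := rel2_j2 R
  rw [← S28.Vq_eq, ← S28.jd] at h1
  have h3 := congrArg (S28.Vq R 2) h1
  simp only [map_mul, map_pow, map_sub, map_ofNat] at h3
  rw [Vq_jd R two_ne_zero two_ne_zero, r4_Y] at h3
  linear_combination h3

/-! #### level 9 -/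

/-- `x₃(q³) = (t + 3)³`. -/
theorem r9_Y : S28.Vq R 3 (xq3 R) = (tq9 R + 3) ^ 3 := by
  rw [← sq9_cube, tq9]; ring

/-- `x₃(q) (t² + 9 t + 27) = (t + 9)³`. -/
theorem r9_X : xq3 R * (tq9 R ^ 2 + 9 * tq9 R + 27) = (tq9 R + 9) ^ 3 := by
  have h1 := sq9_rel R
  rw [tq9]
  linear_combination h1

/-- `(x₃(q) - 27) (t² + 9 t + 27) = t³`. -/
theorem r9_h : (xq3 R - 27) * (tq9 R ^ 2 + 9 * tq9 R + 27) = tq9 R ^ 3 := by
  linear_combination r9_X R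

/-- `x₃(q³) - 27 = t (t² + 9 t + 27)`. -/
theorem r9_h3 : S28.Vq R 3 (xq3 R) - 27 = tq9 R * (tq9 R ^ 2 + 9 * tq9 R + 27) := by
  linear_combination r9_Y R

/-- `j(q) t⁹ (t² + 9 t + 27) = ((t + 9) (t³ + 243 t² + 2187 t + 6561))³`. -/
theorem r9_j1 : S28.jd R 1 * (tq9 R ^ 9 * (tq9 R ^ 2 + 9 * tq9 R + 27))
    = ((tq9 R + 9) * (tq9 R ^ 3 + 243 * tq9 R ^ 2 + 2187 * tq9 R + 6561)) ^ 3 := by
  have h1 := rel3_j R
  have h2 := r9_X R
  rw [jd_one']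
  have e1 : tq9 R ^ 3 = (xq3 R - 27) * (tq9 R ^ 2 + 9 * tq9 R + 27) := by linear_combination -h2
  have e2 : tq9 R ^ 3 + 243 * tq9 R ^ 2 + 2187 * tq9 R + 6561
      = (xq3 R + 216) * (tq9 R ^ 2 + 9 * tq9 R + 27) := by linear_combination -h2
  rw [e2, mul_pow, ← h2, show tq9 R ^ 9 = (tq9 R ^ 3) ^ 3 by ring, e1]
  linear_combination (tq9 R ^ 2 + 9 * tq9 R + 27) ^ 4 * h1

/-- `j(q³) t³ (t² + 9 t + 27)³ = ((t + 9) (t³ + 3 t² + 27 t + 81))³`. -/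
theorem r9_j3 : S28.jd R 3 * (tq9 R ^ 3 * (tq9 R ^ 2 + 9 * tq9 R + 27) ^ 3)
    = ((tq9 R + 9) * (tq9 R ^ 3 + 3 * tq9 R ^ 2 + 27 * tq9 R + 81)) ^ 3 := by
  have h1 := rel3_j3 R
  have h2 := r9_X R
  rw [← S28.Vq_eq, ← S28.jd] at h1
  have e1 : tq9 R ^ 3 = (xq3 R - 27) * (tq9 R ^ 2 + 9 * tq9 R + 27) := by linear_combination -h2
  have e2 : tq9 R ^ 3 + 3 * tq9 R ^ 2 + 27 * tq9 R + 81
      = (xq3 R - 24) * (tq9 R ^ 2 + 9 * tq9 R + 27) := by linear_combination -h2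
  rw [e2, mul_pow, ← h2, e1]
  linear_combination (tq9 R ^ 2 + 9 * tq9 R + 27) ^ 4 * h1

/-- `j(q⁹) t (t² + 9 t + 27) = ((t + 3) (t³ + 9 t² + 27 t + 3))³`. -/
theorem r9_j9 : S28.jd R 9 * (tq9 R * (tq9 R ^ 2 + 9 * tq9 R + 27))
    = ((tq9 R + 3) * (tq9 R ^ 3 + 9 * tq9 R ^ 2 + 27 * tq9 R + 3)) ^ 3 := by
  have h1 := rel3_j3 R
  rw [← S28.Vq_eq, ← S28.jd] at h1
  have h3 := congrArg (S28.Vq R 3) h1
  simp only [map_mul, map_pow, map_sub, map_ofNat] at h3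
  rw [Vq_jd R three_ne_zero three_ne_zero, r9_Y] at h3
  linear_combination h3

/-! #### leading terms -/

theorem coeff_sq4_neg_one : (sq4 R).coeff (-1) = 1 := by
  rw [sq4, coeff_single_mul_lau, neg_add_cancel, coeff_lau_zero, map_mul, constantCoeff_n4,
    constantCoeff_d4inv]
  simp

theorem coeff_sq4_of_lt {n : ℤ} (hn : n < -1) : (sq4 R).coeff n = 0 := by
  rw [sq4, coeff_single_mul_lau, coeff_lau_of_neg _ _ (by omega)]

theorem coeff_sq9_neg_one : (sq9 R).coeff (-1) = 1 := by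
  rw [sq9, coeff_single_mul_lau, neg_add_cancel, coeff_lau_zero, map_mul, constantCoeff_n9,
    constantCoeff_d9inv]
  simp

theorem coeff_sq9_of_lt {n : ℤ} (hn : n < -1) : (sq9 R).coeff n = 0 := by
  rw [sq9, coeff_single_mul_lau, coeff_lau_of_neg _ _ (by omega)]

theorem coeff_ofNat_of_ne (c : ℕ) [c.AtLeastTwo] {n : ℤ} (hn : n ≠ 0) :
    (OfNat.ofNat c : LaurentSeries R).coeff n = 0 := by
  rw [← map_ofNat (HahnSeries.C (Γ := ℤ) (R := R))]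
  exact HahnSeries.coeff_single_of_ne hn

theorem coeff_tq4_neg_one : (tq4 R).coeff (-1) = 1 := by
  rw [tq4, HahnSeries.coeff_sub, coeff_sq4_neg_one, coeff_ofNat_of_ne R 8 (by norm_num), sub_zero]

theorem coeff_tq4_of_lt {n : ℤ} (hn : n < -1) : (tq4 R).coeff n = 0 := by
  rw [tq4, HahnSeries.coeff_sub, coeff_sq4_of_lt R hn, coeff_ofNat_of_ne R 8 (by omega), sub_zero]

theorem coeff_tq9_neg_one : (tq9 R).coeff (-1) = 1 := by
  rw [tq9, HahnSeries.coeff_sub, coeff_sq9_neg_one, coeff_ofNat_of_ne R 3 (by norm_num), sub_zero]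

theorem coeff_tq9_of_lt {n : ℤ} (hn : n < -1) : (tq9 R).coeff n = 0 := by
  rw [tq9, HahnSeries.coeff_sub, coeff_sq9_of_lt R hn, coeff_ofNat_of_ne R 3 (by omega), sub_zero]

end Rel

end

end Fermat.Agent.S36.HM
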