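import Fermat.Agent.KL.HauptMem
import Fermat.Agent.S28.Tower

/-!
# S36 / HM : the Hauptmoduln of `X₀(4)` and `X₀(9)` in the standard coordinate `q`,
as formal Laurent series with integral coefficients.

* `tq4 R = 1/q + ⋯` (`= η(z)^8/η(4z)^8`), `tq9 R = 1/q + ⋯` (`= η(z)^3/η(9z)^3`).

No modular forms are needed: the modular equation between `x_M(q)` and `x_M(q^M)` is obtained from
the two expressions of `j(q^M)` by dividing out the "Fricke factor", and `t` is an explicit rational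
function of `x_M(q)`, `x_M(q^M)` whose denominator has leading coefficient `1`.
-/

set_option autoImplicit false

open PowerSeries ModularCurve

namespace Fermat.Agent.S36.HM

open Fermat.Agent.KL.Haupt Fermat.Agent

noncomputable section

/-- `ξ₂ = q x₂`. -/
def xi2 : PowerSeries ℤ := a2 * bUinv 2

/-- `ξ₃ = q x₃`. -/
def xi3 : PowerSeries ℤ := a3 * bUinv 3

theorem constantCoeff_xi2 : constantCoeff xi2 = 1 := by
  rw [xi2, map_mul, constantCoeff_a2, constantCoeff_bUinv 2 le_rfl, one_mul]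

theorem constantCoeff_xi3 : constantCoeff xi3 = 1 := by
  rw [xi3, map_mul, constantCoeff_a3, constantCoeff_bUinv 3 (by norm_num), one_mul]

/-- `ξ₂(q²)`. -/
abbrev xi2' : PowerSeries ℤ := expand 2 two_ne_zero xi2

/-- `ξ₃(q³)`. -/
abbrev xi3' : PowerSeries ℤ := expand 3 three_ne_zero xi3

theorem constantCoeff_expand' (M : ℕ) (hM : M ≠ 0) (u : PowerSeries ℤ) :
    constantCoeff (expand M hM u) = constantCoeff u := by
  rw [← coeff_zero_eq_constantCoeff_apply, ← coeff_zero_eq_constantCoeff_apply]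
  have := coeff_expand_mul M hM u 0
  rwa [mul_zero] at this

/-- `q (x₂ - 48)`. -/
def d4 : PowerSeries ℤ := xi2 - 48 * X

/-- `q² (x₂(q²) + 576 - 8 x₂)`. -/
def n4 : PowerSeries ℤ := xi2' + 576 * X ^ 2 - 8 * (X * xi2)

/-- `q⁴ (X Y - 270 X - 18 Y + 7776)`, `X = x₃`, `Y = x₃(q³)`. -/
def d9 : PowerSeries ℤ := xi3 * xi3' - 270 * (X ^ 3 * xi3) - 18 * (X * xi3') + 7776 * X ^ 4

/-- `q⁵ (X² Y - 27 X² - 33 X Y + 1620 X + 216 Y - 23328)`. -/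
def n9 : PowerSeries ℤ := xi3 ^ 2 * xi3' - 27 * (X ^ 3 * xi3 ^ 2) - 33 * (X * (xi3 * xi3'))
  + 1620 * (X ^ 4 * xi3) + 216 * (X ^ 2 * xi3') - 23328 * X ^ 5

theorem constantCoeff_d4 : constantCoeff d4 = 1 := by
  rw [d4]; simp [constantCoeff_xi2]

theorem constantCoeff_n4 : constantCoeff n4 = 1 := by
  rw [n4]; simp [constantCoeff_xi2]

theorem constantCoeff_d9 : constantCoeff d9 = 1 := by
  rw [d9]; simp [constantCoeff_xi3]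

theorem constantCoeff_n9 : constantCoeff n9 = 1 := by
  rw [n9]; simp [constantCoeff_xi3]

/-- `1 / d4`. -/
def d4inv : PowerSeries ℤ := d4.invOfUnit 1

/-- `1 / d9`. -/
def d9inv : PowerSeries ℤ := d9.invOfUnit 1

theorem d4_mul_inv : d4 * d4inv = 1 := mul_invOfUnit _ _ (by rw [constantCoeff_d4]; rfl)

theorem d9_mul_inv : d9 * d9inv = 1 := mul_invOfUnit _ _ (by rw [constantCoeff_d9]; rfl)

theorem constantCoeff_d4inv : constantCoeff d4inv = 1 := by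
  have h := congrArg (constantCoeff (R := ℤ)) d4_mul_inv
  rwa [map_mul, constantCoeff_d4, one_mul, map_one] at h

theorem constantCoeff_d9inv : constantCoeff d9inv = 1 := by
  have h := congrArg (constantCoeff (R := ℤ)) d9_mul_inv
  rwa [map_mul, constantCoeff_d9, one_mul, map_one] at h

section General

variable (R : Type) [CommRing R]

/-- `1/q`. -/
abbrev Qs : LaurentSeries R := HahnSeries.single (-1 : ℤ) 1

/-- `q`. -/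
abbrev Ts : LaurentSeries R := lau R X

theorem QT : Qs R * Ts R = 1 := single_neg_one_mul_lau_X R

theorem QT_pow (n : ℕ) : Qs R ^ n * Ts R ^ n = 1 := by rw [← mul_pow, QT, one_pow]

/-- `s₄ = t₄ + 8`, `s₄² = x₂(q²)`. -/
def sq4 : LaurentSeries R := Qs R * lau R (n4 * d4inv)

/-- `s₉ = t₉ + 3`, `s₉³ = x₃(q³)`. -/
def sq9 : LaurentSeries R := Qs R * lau R (n9 * d9inv)

/-- the Hauptmodul `t₄ = 1/q - 8 + ⋯` of `X₀(4)`. -/
def tq4 : LaurentSeries R := sq4 R - 8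

/-- the Hauptmodul `t₉ = 1/q - 3 + ⋯` of `X₀(9)`. -/
def tq9 : LaurentSeries R := sq9 R - 3

variable {R} in
theorem coeffMap_sq4 {S : Type} [CommRing S] (f : R →+* S) : coeffMap f (sq4 R) = sq4 S := by
  rw [sq4, map_mul, coeffMap_single, map_one, coeffMap_lau, sq4]

variable {R} in
theorem coeffMap_sq9 {S : Type} [CommRing S] (f : R →+* S) : coeffMap f (sq9 R) = sq9 S := by
  rw [sq9, map_mul, coeffMap_single, map_one, coeffMap_lau, sq9]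

variable {R} in
theorem coeffMap_tq4 {S : Type} [CommRing S] (f : R →+* S) : coeffMap f (tq4 R) = tq4 S := by
  rw [tq4, map_sub, coeffMap_sq4, map_ofNat, tq4]

variable {R} in
theorem coeffMap_tq9 {S : Type} [CommRing S] (f : R →+* S) : coeffMap f (tq9 R) = tq9 S := by
  rw [tq9, map_sub, coeffMap_sq9, map_ofNat, tq9]

theorem xq2_eq : xq2 R = Qs R * lau R xi2 := rfl

theorem xq3_eq : xq3 R = Qs R * lau R xi3 := rfl

theorem Vq_Qs (d : ℕ) [NeZero d] : S28.Vq R d (Qs R) = Qs R ^ d := by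
  rw [S28.Vq_eq, qExpand_single, HahnSeries.single_pow, one_pow]
  congr 1

theorem Vq_lau (d : ℕ) [NeZero d] (u : PowerSeries ℤ) :
    S28.Vq R d (lau R u) = lau R (expand d (NeZero.ne d) u) := by
  rw [S28.Vq_eq, qExpand_lau]

theorem Vq_xq2 : S28.Vq R 2 (xq2 R) = Qs R ^ 2 * lau R xi2' := by
  rw [xq2_eq, map_mul, Vq_Qs, Vq_lau]

theorem Vq_xq3 : S28.Vq R 3 (xq3 R) = Qs R ^ 3 * lau R xi3' := by
  rw [xq3_eq, map_mul, Vq_Qs, Vq_lau]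

/-- `s₄ (X - 48) = Y + 576 - 8 X`. -/
theorem sq4_mul : sq4 R * (xq2 R - 48) = S28.Vq R 2 (xq2 R) + 576 - 8 * xq2 R := by
  have h1 := congrArg (lau R) d4_mul_inv
  have h2 := QT R
  rw [map_mul, map_one, d4] at h1
  simp only [map_sub, map_mul, map_ofNat] at h1
  rw [Vq_xq2, xq2_eq, sq4, n4]
  simp only [map_sub, map_add, map_mul, map_pow, map_ofNat]
  linear_combination (Qs R ^ 2 * (lau R xi2' + 576 * Ts R ^ 2 - 8 * (Ts R * lau R xi2))) * h1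
    + (48 * Qs R * (lau R xi2' + 576 * Ts R ^ 2 - 8 * (Ts R * lau R xi2)) * lau R d4inv
      + 576 * (Qs R * Ts R + 1) - 8 * Qs R * lau R xi2) * h2

/-- the denominator of `s₉`. -/
def den9 : LaurentSeries R :=
  xq3 R * S28.Vq R 3 (xq3 R) - 270 * xq3 R - 18 * S28.Vq R 3 (xq3 R) + 7776

/-- the numerator of `s₉`. -/
def num9 : LaurentSeries R :=
  xq3 R ^ 2 * S28.Vq R 3 (xq3 R) - 27 * xq3 R ^ 2 - 33 * (xq3 R * S28.Vq R 3 (xq3 R))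
    + 1620 * xq3 R + 216 * S28.Vq R 3 (xq3 R) - 23328

theorem den9_eq : den9 R = Qs R ^ 4 * lau R d9 := by
  have h1 := QT R
  have h3 := QT_pow R 3
  have h4 := QT_pow R 4
  rw [den9, Vq_xq3, xq3_eq, d9]
  simp only [map_sub, map_add, map_mul, map_pow, map_ofNat]
  linear_combination (270 * Qs R * lau R xi3) * h3 + (18 * Qs R ^ 3 * lau R xi3') * h1 - 7776 * h4

theorem num9_eq : num9 R = Qs R ^ 5 * lau R n9 := by
  have h1 := QT R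
  have h2 := QT_pow R 2
  have h3 := QT_pow R 3
  have h4 := QT_pow R 4
  have h5 := QT_pow R 5
  rw [num9, Vq_xq3, xq3_eq, n9]
  simp only [map_sub, map_add, map_mul, map_pow, map_ofNat]
  linear_combination (27 * Qs R ^ 2 * lau R xi3 ^ 2) * h3
    + (33 * Qs R ^ 4 * lau R xi3 * lau R xi3') * h1 - (1620 * Qs R * lau R xi3) * h4
    - (216 * Qs R ^ 3 * lau R xi3') * h2 + 23328 * h5

/-- `s₉ · den = num`. -/
theorem sq9_mul : sq9 R * den9 R = num9 R := by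
  have h1 := congrArg (lau R) d9_mul_inv
  rw [map_mul, map_one] at h1
  rw [den9_eq, num9_eq, sq9, map_mul]
  linear_combination (Qs R ^ 5 * lau R n9) * h1

end General

/-! ### the relations over `ℤ` -/

theorem lau_mul_ne_zero {u : PowerSeries ℤ} (hu : constantCoeff u = 1) (n : ℕ) :
    Qs ℤ ^ n * lau ℤ u ≠ 0 := by
  intro h
  have h1 : lau ℤ u = 0 := by
    have := congrArg (fun z => Ts ℤ ^ n * z) h
    simp only [mul_zero] at this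
    rw [← mul_assoc, mul_comm (Ts ℤ ^ n), QT_pow, one_mul] at this
    exact this
  have h2 : u = 0 := lau_injective_int (by rw [h1, map_zero])
  rw [h2] at hu
  simp at hu

/-- the "Fricke factor" does not vanish, level 4. -/
theorem fricke4_ne : (xq2 ℤ - 64) * (S28.Vq ℤ 2 (xq2 ℤ) - 64) - 4096 ≠ 0 := by
  have e : (xq2 ℤ - 64) * (S28.Vq ℤ 2 (xq2 ℤ) - 64) - 4096
      = Qs ℤ ^ 3 * lau ℤ ((xi2 - 64 * X) * (xi2' - 64 * X ^ 2) - 4096 * X ^ 3) := by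
    have h1 := QT ℤ
    have h2 := QT_pow ℤ 2
    rw [Vq_xq2, xq2_eq]
    simp only [map_sub, map_add, map_mul, map_pow, map_ofNat]
    linear_combination (64 * Qs ℤ * lau ℤ xi2) * h2 + (64 * Qs ℤ ^ 2 * lau ℤ xi2') * h1
  rw [e]
  apply lau_mul_ne_zero
  simp [constantCoeff_xi2]

/-- the "Fricke factor" does not vanish, level 9. -/
theorem fricke9_ne : (xq3 ℤ - 27) * (S28.Vq ℤ 3 (xq3 ℤ) - 27) - 729 ≠ 0 := by
  have e : (xq3 ℤ - 27) * (S28.Vq ℤ 3 (xq3 ℤ) - 27) - 729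
      = Qs ℤ ^ 4 * lau ℤ ((xi3 - 27 * X) * (xi3' - 27 * X ^ 3) - 729 * X ^ 4) := by
    have h1 := QT ℤ
    have h3 := QT_pow ℤ 3
    rw [Vq_xq3, xq3_eq]
    simp only [map_sub, map_add, map_mul, map_pow, map_ofNat]
    linear_combination (27 * Qs ℤ * lau ℤ xi3) * h3 + (27 * Qs ℤ ^ 3 * lau ℤ xi3') * h1
  rw [e]
  apply lau_mul_ne_zero
  simp [constantCoeff_xi3]

theorem xq2_sub_ne : xq2 ℤ - 48 ≠ 0 := by
  have e : xq2 ℤ - 48 = Qs ℤ ^ 1 * lau ℤ d4 := by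
    have h1 := QT ℤ
    rw [xq2_eq, d4]
    simp only [map_sub, map_mul, map_ofNat]
    linear_combination 48 * h1
  rw [e]
  exact lau_mul_ne_zero constantCoeff_d4 1

theorem den9_ne : den9 ℤ ≠ 0 := by
  rw [den9_eq]
  exact lau_mul_ne_zero constantCoeff_d9 4

/-- the modular equation of level `4` over level `2`. -/
theorem modEq4 : S28.Vq ℤ 2 (xq2 ℤ) * (xq2 ℤ - 48) ^ 2
    = (S28.Vq ℤ 2 (xq2 ℤ) + 576 - 8 * xq2 ℤ) ^ 2 := by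
  have h1 := rel2_j2 ℤ
  have h2 := congrArg (S28.Vq ℤ 2) (rel2_j ℤ)
  rw [← S28.Vq_eq] at h1
  simp only [map_mul, map_pow, map_sub, map_add, map_ofNat] at h2
  have h3 : ((xq2 ℤ - 64) * (S28.Vq ℤ 2 (xq2 ℤ) - 64) - 4096)
      * (S28.Vq ℤ 2 (xq2 ℤ) * (xq2 ℤ - 48) ^ 2
        - (S28.Vq ℤ 2 (xq2 ℤ) + 576 - 8 * xq2 ℤ) ^ 2) = 0 := by
    linear_combination (-(S28.Vq ℤ 2 (xq2 ℤ) - 64) ^ 2) * h1 + (xq2 ℤ - 64) * h2
  rcases mul_eq_zero.1 h3 with h | h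
  · exact absurd h fricke4_ne
  · exact sub_eq_zero.1 h

/-- the modular equation of level `9` over level `3`. -/
theorem modEq9 : xq3 ℤ ^ 3 * S28.Vq ℤ 3 (xq3 ℤ) ^ 2 - 54 * xq3 ℤ ^ 3 * S28.Vq ℤ 3 (xq3 ℤ)
    + 729 * xq3 ℤ ^ 3 - 45 * xq3 ℤ ^ 2 * S28.Vq ℤ 3 (xq3 ℤ) ^ 2
    + 3159 * xq3 ℤ ^ 2 * S28.Vq ℤ 3 (xq3 ℤ) - 52488 * xq3 ℤ ^ 2
    + 513 * xq3 ℤ * S28.Vq ℤ 3 (xq3 ℤ) ^ 2 - 40824 * xq3 ℤ * S28.Vq ℤ 3 (xq3 ℤ)
    + 1259712 * xq3 ℤ - S28.Vq ℤ 3 (xq3 ℤ) ^ 3 - 648 * S28.Vq ℤ 3 (xq3 ℤ) ^ 2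
    - 139968 * S28.Vq ℤ 3 (xq3 ℤ) - 10077696 = 0 := by
  have h1 := rel3_j3 ℤ
  have h2 := congrArg (S28.Vq ℤ 3) (rel3_j ℤ)
  rw [← S28.Vq_eq] at h1
  simp only [map_mul, map_pow, map_sub, map_add, map_ofNat] at h2
  have h3 : ((xq3 ℤ - 27) * (S28.Vq ℤ 3 (xq3 ℤ) - 27) - 729)
      * (xq3 ℤ ^ 3 * S28.Vq ℤ 3 (xq3 ℤ) ^ 2 - 54 * xq3 ℤ ^ 3 * S28.Vq ℤ 3 (xq3 ℤ)
    + 729 * xq3 ℤ ^ 3 - 45 * xq3 ℤ ^ 2 * S28.Vq ℤ 3 (xq3 ℤ) ^ 2
    + 3159 * xq3 ℤ ^ 2 * S28.Vq ℤ 3 (xq3 ℤ) - 52488 * xq3 ℤ ^ 2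
    + 513 * xq3 ℤ * S28.Vq ℤ 3 (xq3 ℤ) ^ 2 - 40824 * xq3 ℤ * S28.Vq ℤ 3 (xq3 ℤ)
    + 1259712 * xq3 ℤ - S28.Vq ℤ 3 (xq3 ℤ) ^ 3 - 648 * S28.Vq ℤ 3 (xq3 ℤ) ^ 2
    - 139968 * S28.Vq ℤ 3 (xq3 ℤ) - 10077696) = 0 := by
    linear_combination (-(S28.Vq ℤ 3 (xq3 ℤ) - 27) ^ 3) * h1 + (xq3 ℤ - 27) * h2
  rcases mul_eq_zero.1 h3 with h | h
  · exact absurd h fricke9_ne
  · exact h

/-- `s₄² = x₂(q²)`. -/
theorem sq4_sq_int : sq4 ℤ ^ 2 = S28.Vq ℤ 2 (xq2 ℤ) := by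
  have h1 := sq4_mul ℤ
  have h2 := modEq4
  apply mul_right_cancel₀ (pow_ne_zero 2 xq2_sub_ne)
  rw [h2, ← h1]
  ring

/-- `s₉³ = x₃(q³)`. -/
theorem sq9_cube_int : sq9 ℤ ^ 3 = S28.Vq ℤ 3 (xq3 ℤ) := by
  have h1 := sq9_mul ℤ
  have h2 := modEq9
  apply mul_right_cancel₀ (pow_ne_zero 3 den9_ne)
  have e : sq9 ℤ ^ 3 * den9 ℤ ^ 3 = num9 ℤ ^ 3 := by rw [← h1]; ring
  rw [e, num9, den9]
  linear_combination (xq3 ℤ ^ 3 * S28.Vq ℤ 3 (xq3 ℤ) - 27 * xq3 ℤ ^ 3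
    - 54 * xq3 ℤ ^ 2 * S28.Vq ℤ 3 (xq3 ℤ) + 2916 * xq3 ℤ ^ 2 + 972 * xq3 ℤ * S28.Vq ℤ 3 (xq3 ℤ)
    - 104976 * xq3 ℤ - 5832 * S28.Vq ℤ 3 (xq3 ℤ) + 1259712) * h2

/-- `x₃ (s₉² + 3 s₉ + 9) = (s₉ + 6)³`. -/
theorem sq9_rel_int : xq3 ℤ * (sq9 ℤ ^ 2 + 3 * sq9 ℤ + 9) = (sq9 ℤ + 6) ^ 3 := by
  have h1 := sq9_mul ℤ
  have h2 := modEq9
  apply mul_right_cancel₀ (pow_ne_zero 3 den9_ne)
  have e1 : xq3 ℤ * (sq9 ℤ ^ 2 + 3 * sq9 ℤ + 9) * den9 ℤ ^ 3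
      = xq3 ℤ * (num9 ℤ ^ 2 + 3 * num9 ℤ * den9 ℤ + 9 * den9 ℤ ^ 2) * den9 ℤ := by
    rw [← h1]; ring
  have e2 : (sq9 ℤ + 6) ^ 3 * den9 ℤ ^ 3 = (num9 ℤ + 6 * den9 ℤ) ^ 3 := by rw [← h1]; ring
  rw [e1, e2, num9, den9]
  linear_combination (-243 * xq3 ℤ ^ 3 + 14580 * xq3 ℤ ^ 2 - 262440 * xq3 ℤ + 1259712) * h2

end

end Fermat.Agent.S36.HM
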